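/-
helper93 (P-CFT, S14 side).  Statement of the bridge lemma between the valuation-subring
formulation of inertia used by the Prelude and the ideal-theoretic inertia groups of Mathlib.
Only definitions; the lemma itself is proved in `Bridge.lean`.
-/
import Mathlib
import Fermat.Prelude.Def_FLTPrelim_Ramification

set_option autoImplicit false

namespace Fermat.Agent.Lib.CFT.S14

open NumberField

/-- The algebraic closure of the rationals used throughout the Prelude. -/
abbrev Qbar : Type := AlgebraicClosure ℚ

/-- A finite subextension of `ℚ̄ / ℚ` is a number field. -/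
instance instNumberFieldOfFinite (M : IntermediateField ℚ Qbar) [FiniteDimensional ℚ M] :
    NumberField M where
  to_charZero := inferInstance
  to_finiteDimensional := inferInstance

/-- Bridge lemma: every element of an inertia group of a finite Galois subextension `M / ℚ`
of `ℚ̄` is the restriction of an element of the inertia subgroup (in the sense of the Prelude)
of a valuation subring of `ℚ̄` lying over the residue characteristic. -/
def InertiaLift : Prop :=
  ∀ (M : IntermediateField ℚ Qbar) [FiniteDimensional ℚ M] [IsGalois ℚ M]
    (P : Ideal (𝓞 M)), P.IsPrime → P ≠ ⊥ → ∀ σ : Gal(M/ℚ), σ ∈ Ideal.inertia Gal(M/ℚ) P →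
    ∃ (ℓ : ℕ) (A : ValuationSubring Qbar), ℓ.Prime ∧ A.LiesOverPrime ℓ ∧ ((ℓ : 𝓞 M) ∈ P) ∧
      ∃ s ∈ A.inertiaSubgroupIn ℚ, AlgEquiv.restrictNormalHom M s = σ

end Fermat.Agent.Lib.CFT.S14
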