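import Mathlib
import Fermat.Prelude.Def_FLTPrelim_Ramification
import Fermat.Agent.Lib.FrobeniusExists
import Fermat.Agent.Lib.CFT.S14.BridgeDefs

/-!
helper19 (P-CFT, S14 side, task 170).  Bridge between inertia groups of primes of a finite Galois
number field `M ⊆ Qbar` (Mathlib `Ideal.inertia`) and the inertia subgroups of valuation
subrings of `Qbar` used by the prelude (`ValuationSubring.inertiaSubgroupIn`).
-/

set_option autoImplicit false

open NumberField
open scoped Pointwise

namespace Fermat.Agent.Lib.CFT.S14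

namespace Bridge

section rel

variable {L : Type*} [Field L] [Algebra ℚ L] (M : IntermediateField ℚ L)


/-- The inclusion of the ring of integers of `M` into the algebraic integers of `L`. -/
noncomputable def toIntegers : 𝓞 M →+* integralClosure ℤ L where
  toFun x := ⟨algebraMap M L (x : M), (RingOfIntegers.isIntegral_coe x).algebraMap⟩
  map_one' := Subtype.ext (by simp)
  map_mul' x y := Subtype.ext (by simp)
  map_zero' := Subtype.ext (by simp)
  map_add' x y := Subtype.ext (by simp)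

theorem coe_toIntegers (x : 𝓞 M) :
    ((toIntegers M x : integralClosure ℤ L) : L) = algebraMap M L (x : M) := rfl

theorem toIntegers_injective : Function.Injective (toIntegers (L := L) M) := by
  intro x y h
  have h1 := congrArg Subtype.val h
  rw [coe_toIntegers, coe_toIntegers] at h1
  exact RingOfIntegers.coe_injective ((algebraMap M L).injective h1)

/-- The algebra structure of the algebraic integers of `L` over the ring of integers of `M`. -/
@[reducible] noncomputable def relAlgebra : Algebra (𝓞 M) (integralClosure ℤ L) :=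
  (toIntegers M).toAlgebra

theorem rel_smulComm :
    letI := relAlgebra (L := L) M
    SMulCommClass (L ≃ₐ[M] L) (𝓞 M) (integralClosure ℤ L) := by
  let _ := relAlgebra (L := L) M
  refine ⟨fun g x b => ?_⟩
  apply Subtype.ext
  change g ((toIntegers M x * b : integralClosure ℤ L) : L)
    = ((toIntegers M x * (g • b) : integralClosure ℤ L) : L)
  have : ((g • b : integralClosure ℤ L) : L) = g (b : L) := rfl
  rw [MulMemClass.coe_mul, MulMemClass.coe_mul, map_mul, this, coe_toIntegers, g.commutes]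

theorem rel_isInvariant [IsGalois M L] :
    letI := relAlgebra (L := L) M
    Algebra.IsInvariant (𝓞 M) (integralClosure ℤ L) (L ≃ₐ[M] L) := by
  let _ := relAlgebra (L := L) M
  refine ⟨fun b hb => ?_⟩
  have h1 : (b : L) ∈ Set.range (algebraMap M L) := by
    rw [InfiniteGalois.mem_range_algebraMap_iff_fixed]
    intro f
    exact congrArg Subtype.val (hb f)
  obtain ⟨m, hm⟩ := h1
  have h2 : IsIntegral ℤ m := by
    have h3 : IsIntegral ℤ (algebraMap M L m) := hm ▸ b.2
    exact (isIntegral_algebraMap_iff (FaithfulSMul.algebraMap_injective M L)).mp h3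
  obtain ⟨a, ha⟩ := (IsIntegralClosure.isIntegral_iff (A := 𝓞 M)).mp h2
  refine ⟨a, Subtype.ext ?_⟩
  change ((toIntegers M a : integralClosure ℤ L) : L) = b
  rw [coe_toIntegers, ← hm]
  exact congrArg (algebraMap M L) ha

theorem rel_continuousSMul [Algebra.IsIntegral M L] :
    letI : TopologicalSpace (integralClosure ℤ L) := ⊥
    ContinuousSMul (L ≃ₐ[M] L) (integralClosure ℤ L) := by
  let _ : TopologicalSpace (integralClosure ℤ L) := ⊥
  have : DiscreteTopology (integralClosure ℤ L) := ⟨rfl⟩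
  rw [continuousSMul_iff_stabilizer_isOpen]
  intro b
  convert stabilizer_isOpen_of_isIntegral (K := M) (L := L) (b : L) using 1
  ext g
  simp only [SetLike.mem_coe, MulAction.mem_stabilizer_iff]
  constructor
  · intro h
    exact congrArg Subtype.val h
  · intro h
    exact Subtype.ext h

end rel

section val

variable {L : Type*} [Field L] [Algebra ℚ L] [Algebra.IsAlgebraic ℚ L]

/-- An automorphism preserving the prime of algebraic integers cut out by `A` stabilises `A`. -/
theorem mem_decompositionSubgroup_of_integers (A : ValuationSubring L) {ℓ : ℕ} (hℓ : ℓ.Prime)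
    (hA : (ℓ : L) ∈ A.nonunits) (τ : L ≃ₐ[ℚ] L)
    (hτ : ∀ b : L, IsIntegral ℤ b → (τ b ∈ A.nonunits ↔ b ∈ A.nonunits)) :
    τ ∈ A.decompositionSubgroup ℚ := by
  have hτ2 : ∀ b : L, IsIntegral ℤ b → (τ.symm b ∈ A.nonunits ↔ b ∈ A.nonunits) := by
    intro b hb
    have := hτ (τ.symm b) (hb.map τ.symm)
    rw [AlgEquiv.apply_symm_apply] at this
    exact this.symm
  rw [MulAction.mem_stabilizer_iff]
  ext x
  rw [ValuationSubring.mem_pointwise_smul_iff_inv_smul_mem]
  constructor
  · intro hx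
    have := map_mem_of_integers A hℓ hA τ hτ hx
    simpa using this
  · intro hx
    exact map_mem_of_integers A hℓ hA τ.symm hτ2 hx

/-- An automorphism acting trivially on algebraic integers modulo the prime cut out by `A`
lies in the inertia subgroup of `A`. -/
theorem mem_inertiaSubgroupIn_of_integers (A : ValuationSubring L) {ℓ : ℕ} (hℓ : ℓ.Prime)
    (hA : (ℓ : L) ∈ A.nonunits) (τ : L ≃ₐ[ℚ] L)
    (h : ∀ b : L, IsIntegral ℤ b → τ b - b ∈ A.nonunits) :
    τ ∈ A.inertiaSubgroupIn ℚ := by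
  have hτ : ∀ b : L, IsIntegral ℤ b → (τ b ∈ A.nonunits ↔ b ∈ A.nonunits) := by
    intro b hb
    constructor
    · intro hτb
      have : b = τ b - (τ b - b) := by ring
      rw [this]
      exact A.nonunits.sub_mem hτb (h b hb)
    · intro hbm
      have : τ b = (τ b - b) + b := by ring
      rw [this]
      exact A.nonunits.add_mem (h b hb) hbm
  have hmem := mem_decompositionSubgroup_of_integers A hℓ hA τ hτ
  rw [ValuationSubring.inertiaSubgroupIn, Subgroup.mem_map]
  refine ⟨⟨τ, hmem⟩, ?_, rfl⟩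
  rw [ValuationSubring.inertiaSubgroup, MonoidHom.mem_ker]
  ext xbar
  rw [MulSemiringAction.toRingAut_apply, RingAut.one_apply]
  obtain ⟨x, rfl⟩ := IsLocalRing.residue_surjective xbar
  change (⟨τ, hmem⟩ : A.decompositionSubgroup ℚ) • (IsLocalRing.residue A x) = _
  rw [← IsLocalRing.ResidueField.residue_smul]
  rw [← sub_eq_zero, ← map_sub, IsLocalRing.residue_eq_zero_iff]
  rw [← ValuationSubring.coe_mem_nonunits_iff]
  have hcoe : (((⟨τ, hmem⟩ : A.decompositionSubgroup ℚ) • x - x : A) : L) =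
      τ (x : L) - (x : L) := by
    rfl
  rw [hcoe]
  have hxalg : IsAlgebraic ℤ (x : L) :=
    (IsFractionRing.isAlgebraic_iff ℤ ℚ L).mpr (Algebra.IsAlgebraic.isAlgebraic (x : L))
  have : CharZero L := algebraRat.charZero L
  obtain ⟨s, hs, hsm, hsx⟩ := exists_integral_mul A hℓ hA x.2 hxalg
  have hτs : IsIntegral ℤ (τ s) := hs.map τ
  have h1 : A.valuation (τ s) = 1 := by
    have h2 : τ s ∉ A.nonunits := fun h => hsm ((hτ s hs).mp h)
    rw [ValuationSubring.mem_nonunits_iff, not_lt] at h2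
    exact le_antisymm
      ((A.valuation_le_one_iff _).mpr (mem_valuationSubring_of_isIntegral A hτs)) h2
  have hkey : τ s * (τ (x : L) - (x : L)) =
      (τ (s * x) - s * x) - (τ s - s) * (x : L) := by
    rw [map_mul]; ring
  have h4 : τ s * (τ (x : L) - (x : L)) ∈ A.nonunits := by
    rw [hkey]
    refine A.nonunits.sub_mem (h _ hsx) ?_
    exact mul_mem_nonunits_of_mem A (h s hs) x.2
  rw [ValuationSubring.mem_nonunits_iff, map_mul, h1, one_mul] at h4
  exact A.mem_nonunits_iff.mpr h4

end val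

section main

variable {L : Type*} [Field L] [Algebra ℚ L] [IsGalois ℚ L]

theorem exists_inertia_lift_aux (M : IntermediateField ℚ L) [NumberField M] [IsGalois ℚ M]
    (P : Ideal (𝓞 M)) (hP : P.IsPrime) (hP0 : P ≠ ⊥) (σ : Gal(M/ℚ))
    (hs : σ ∈ Ideal.inertia Gal(M/ℚ) P) :
    ∃ (l : ℕ) (A : ValuationSubring L), l.Prime ∧ A.LiesOverPrime l ∧ ((l : 𝓞 M) ∈ P) ∧
      ∃ s ∈ A.inertiaSubgroupIn ℚ, AlgEquiv.restrictNormalHom M s = σ := by
  classical
  have hLalg : Algebra.IsAlgebraic ℚ L := inferInstance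
  have : NeZero P := ⟨hP0⟩
  have hlp : (Ideal.absNorm (P.under ℤ)).Prime := Nat.absNorm_under_prime P
  have hlP : ((Ideal.absNorm (P.under ℤ) : ℕ) : 𝓞 M) ∈ P := Int.absNorm_under_mem P
  generalize Ideal.absNorm (P.under ℤ) = l at hlp hlP
  have hPmax : P.IsMaximal := hP.isMaximal hP0
  -- the embedding of `𝓞 M` into `L`
  let toL : 𝓞 M →+* L := (algebraMap M L).comp (algebraMap (𝓞 M) M)
  have htoL : ∀ x : 𝓞 M, toL x = ((toIntegers M x : integralClosure ℤ L) : L) := fun x => rfl
  have htoL_inj : Function.Injective toL :=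
    (algebraMap M L).injective.comp RingOfIntegers.coe_injective
  have htoL_int : ∀ x : 𝓞 M, IsIntegral ℤ (toL x) := fun x => (toIntegers M x).2
  -- Step 2: a valuation subring cutting out `P`
  obtain ⟨A, hPA⟩ : ∃ A : ValuationSubring L, ∀ x : 𝓞 M, toL x ∈ A.nonunits ↔ x ∈ P := by
    let R : Subring L := toL.range
    let I : Ideal R := P.map toL.rangeRestrict
    have hI : I ≠ ⊤ := by
      intro htop
      have h1 : (1 : R) ∈ I := by rw [htop]; trivial
      rw [Ideal.mem_map_iff_of_surjective _ toL.rangeRestrict_surjective] at h1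
      obtain ⟨x, hxP, hx1⟩ := h1
      have h2 : toL x = 1 := congrArg Subtype.val hx1
      have h3 : x = 1 := htoL_inj (by rw [h2, map_one])
      exact hP.ne_top ((Ideal.eq_top_iff_one P).mpr (h3 ▸ hxP))
    obtain ⟨A, -, hIA⟩ := Ideal.image_subset_nonunits_valuationSubring I hI
    refine ⟨A, fun x => ⟨fun hx => ?_, fun hx => ?_⟩⟩
    · by_contra hxP
      obtain ⟨y, i, hi, hyi⟩ := hPmax.exists_inv hxP
      have hi' : toL i ∈ A.nonunits :=
        hIA ⟨toL.rangeRestrict i, Ideal.mem_map_of_mem _ hi, rfl⟩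
      have h1 : toL y * toL x + toL i = 1 := by
        rw [← map_mul, ← map_add, hyi, map_one]
      apply one_not_mem_nonunits A
      rw [← h1]
      refine A.nonunits.add_mem ?_ hi'
      rw [mul_comm]
      exact mul_mem_nonunits_of_mem A hx (mem_valuationSubring_of_isIntegral A (htoL_int y))
    · exact hIA ⟨toL.rangeRestrict x, Ideal.mem_map_of_mem _ hx, rfl⟩
  have hA : (l : L) ∈ A.nonunits := by
    have := (hPA (l : 𝓞 M)).mpr hlP
    rwa [map_natCast] at this
  -- Step 3: relative set-up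
  have hGalML : IsGalois M L := IsGalois.tower_top_intermediateField M
  have hIntML : Algebra.IsIntegral M L := inferInstance
  let _ := relAlgebra (L := L) M
  have := rel_smulComm (L := L) M
  have := rel_isInvariant (L := L) M
  let _ : TopologicalSpace (integralClosure ℤ L) := ⊥
  have : DiscreteTopology (integralClosure ℤ L) := ⟨rfl⟩
  have := rel_continuousSMul (L := L) M
  let PP : Ideal (integralClosure ℤ L) := primeOfValuationSubring A
  have hPPprime : PP.IsPrime := primeOfValuationSubring_isPrime A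
  have hPPunder : PP.under (𝓞 M) = P := by
    ext x
    rw [Ideal.under_def, Ideal.mem_comap]
    change toIntegers M x ∈ primeOfValuationSubring A ↔ _
    rw [mem_primeOfValuationSubring, ← htoL, hPA]
  -- Step 4: lift `σ` and move the prime back
  obtain ⟨s0, hs0⟩ := AlgEquiv.restrictNormalHom_surjective L σ
  have hs0M : ∀ (τ : L ≃ₐ[ℚ] L) (m : M), τ (algebraMap M L m)
      = algebraMap M L (AlgEquiv.restrictNormalHom M τ m) := fun τ m =>
    (AlgEquiv.restrictNormal_commutes τ M m).symm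
  have hcoe_smul : ∀ (τ : Gal(M/ℚ)) (x : 𝓞 M), ((τ • x : 𝓞 M) : M) = τ (x : M) := fun τ x => rfl
  have hs' : ∀ x : 𝓞 M, σ • x - x ∈ P := fun x => hs x
  have hsinv : ∀ x : 𝓞 M, σ⁻¹ • x - x ∈ P := fun x =>
    (Subgroup.inv_mem _ hs : σ⁻¹ ∈ Ideal.inertia Gal(M/ℚ) P) x
  -- action of automorphisms of `L` over `ℚ` on `toL`
  have htoL_smul : ∀ (τ : L ≃ₐ[ℚ] L) (x : 𝓞 M),
      τ (toL x) = toL ((AlgEquiv.restrictNormalHom M τ) • x) := by
    intro τ x
    change τ (algebraMap M L (x : M)) = algebraMap M L (((AlgEquiv.restrictNormalHom M τ) • x : 𝓞 M) : M)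
    rw [hs0M, hcoe_smul]
  let Q' : Ideal (integralClosure ℤ L) := s0 • PP
  have hQ'mem : ∀ b : integralClosure ℤ L, b ∈ Q' ↔ (s0⁻¹ (b : L)) ∈ A.nonunits := by
    intro b
    change b ∈ s0 • PP ↔ _
    rw [Ideal.mem_pointwise_smul_iff_inv_smul_mem]
    rfl
  have hQ'prime : Q'.IsPrime := by
    change (s0 • PP).IsPrime
    rw [Ideal.pointwise_smul_eq_comap]
    infer_instance
  have hQ'under : Q'.under (𝓞 M) = P := by
    ext x
    rw [Ideal.under_def, Ideal.mem_comap]
    change toIntegers M x ∈ Q' ↔ _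
    rw [hQ'mem, ← htoL, htoL_smul, hPA, map_inv, hs0]
    constructor
    · intro h
      have := P.sub_mem h (hsinv x)
      simpa using this
    · intro h
      have := P.add_mem (hsinv x) h
      simpa using this
  obtain ⟨t, ht⟩ := Algebra.IsInvariant.exists_smul_of_under_eq_of_profinite
    (A := 𝓞 M) (G := L ≃ₐ[M] L) PP Q' (hPPunder.trans hQ'under.symm)
  -- restriction of scalars from `M` to `ℚ`
  have hres : ∀ g : L ≃ₐ[M] L, AlgEquiv.restrictNormalHom M (g.restrictScalars ℚ) = 1 := by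
    intro g
    ext m
    have h1 := hs0M (g.restrictScalars ℚ) m
    change algebraMap M L (AlgEquiv.restrictNormalHom M (g.restrictScalars ℚ) m)
      = algebraMap M L m
    rw [← h1]
    exact g.commutes m
  have hPPmem : ∀ b : integralClosure ℤ L, b ∈ PP ↔ (b : L) ∈ A.nonunits := fun b => Iff.rfl
  let s1 : L ≃ₐ[ℚ] L := (t.restrictScalars ℚ)⁻¹ * s0
  have hs1res : AlgEquiv.restrictNormalHom M s1 = σ := by
    change AlgEquiv.restrictNormalHom M ((t.restrictScalars ℚ)⁻¹ * s0) = σ
    rw [map_mul, map_inv, hres, hs0, inv_one, one_mul]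
  have hs1 : ∀ b : integralClosure ℤ L, (s1 (b : L) ∈ A.nonunits ↔ (b : L) ∈ A.nonunits) := by
    intro b
    have h1 : (s0 • b) ∈ Q' ↔ (b : L) ∈ A.nonunits := by
      rw [hQ'mem]
      change s0⁻¹ (s0 (b : L)) ∈ A.nonunits ↔ _
      rw [show s0⁻¹ (s0 (b : L)) = (b : L) from s0.symm_apply_apply _]
    rw [← h1, ht, Ideal.mem_pointwise_smul_iff_inv_smul_mem, hPPmem]
    rfl
  -- Step 5: `s1` stabilises `PP` and induces an automorphism of the residue field
  have hs1stab : s1 ∈ MulAction.stabilizer (L ≃ₐ[ℚ] L) PP := by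
    rw [MulAction.mem_stabilizer_iff]
    ext b
    rw [Ideal.mem_pointwise_smul_iff_inv_smul_mem, hPPmem, hPPmem, ← hs1 (s1⁻¹ • b)]
    change s1 (s1⁻¹ (b : L)) ∈ A.nonunits ↔ _
    rw [show s1 (s1⁻¹ (b : L)) = (b : L) from s1.apply_symm_apply _]
  have hLO : PP.LiesOver P := ⟨hPPunder.symm⟩
  let e0 := Ideal.Quotient.stabilizerHom PP (PP.under ℤ) (L ≃ₐ[ℚ] L) ⟨s1, hs1stab⟩
  have he0 : ∀ b : integralClosure ℤ L,
      e0 (Ideal.Quotient.mk PP b) = Ideal.Quotient.mk PP (s1 • b) := fun b => rfl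
  let e : (integralClosure ℤ L ⧸ PP) ≃ₐ[𝓞 M ⧸ P] (integralClosure ℤ L ⧸ PP) :=
    AlgEquiv.ofRingEquiv (f := e0.toRingEquiv) (by
      intro x
      obtain ⟨x, rfl⟩ := Ideal.Quotient.mk_surjective x
      rw [Ideal.Quotient.algebraMap_mk_of_liesOver]
      change e0 (Ideal.Quotient.mk PP (toIntegers M x)) = Ideal.Quotient.mk PP (toIntegers M x)
      rw [he0, Ideal.Quotient.eq, hPPmem]
      change s1 (toL x) - toL x ∈ A.nonunits
      rw [htoL_smul, hs1res, ← map_sub, hPA]
      exact hs' x)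
  have he : ∀ b : integralClosure ℤ L,
      e (Ideal.Quotient.mk PP b) = Ideal.Quotient.mk PP (s1 • b) := fun b => rfl
  obtain ⟨r, hr⟩ := Ideal.Quotient.stabilizerHom_surjective_of_profinite
    (G := L ≃ₐ[M] L) P PP e
  -- `r` and `s1` agree modulo `PP`
  have hrs : ∀ b : integralClosure ℤ L, (r : L ≃ₐ[M] L) (b : L) - s1 (b : L) ∈ A.nonunits := by
    intro b
    have h1 := DFunLike.congr_fun hr (Ideal.Quotient.mk PP b)
    rw [he, Ideal.Quotient.stabilizerHom_apply, Ideal.Quotient.eq, hPPmem] at h1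
    exact h1
  have hrinv : ∀ b : integralClosure ℤ L, (b : L) ∈ A.nonunits →
      (r : L ≃ₐ[M] L)⁻¹ (b : L) ∈ A.nonunits := by
    intro b hb
    have h1 : b ∈ (r : L ≃ₐ[M] L) • PP := by
      rw [MulAction.mem_stabilizer_iff.mp r.2]
      exact hb
    rw [Ideal.mem_pointwise_smul_iff_inv_smul_mem, hPPmem] at h1
    exact h1
  -- Step 7: the final element
  let s : L ≃ₐ[ℚ] L := ((r : L ≃ₐ[M] L).restrictScalars ℚ)⁻¹ * s1
  have hsres : AlgEquiv.restrictNormalHom M s = σ := by
    change AlgEquiv.restrictNormalHom M (((r : L ≃ₐ[M] L).restrictScalars ℚ)⁻¹ * s1) = σ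
    rw [map_mul, map_inv, hres, hs1res, inv_one, one_mul]
  have hsint : ∀ b : L, IsIntegral ℤ b → s b - b ∈ A.nonunits := by
    intro b hb
    have h1 := hrs ⟨b, hb⟩
    have h2 := hrinv (((r : L ≃ₐ[M] L) • (⟨b, hb⟩ : integralClosure ℤ L))
      - s1 • (⟨b, hb⟩ : integralClosure ℤ L)) h1
    have h3 : (r : L ≃ₐ[M] L)⁻¹ ((((r : L ≃ₐ[M] L) • (⟨b, hb⟩ : integralClosure ℤ L))
      - s1 • (⟨b, hb⟩ : integralClosure ℤ L) : integralClosure ℤ L) : L) = b - s b := by
      change (r : L ≃ₐ[M] L)⁻¹ ((r : L ≃ₐ[M] L) b - s1 b) = b - s b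
      rw [map_sub]
      congr 1
      exact (r : L ≃ₐ[M] L).symm_apply_apply b
    rw [h3] at h2
    have := A.nonunits.neg_mem h2
    simpa using this
  exact ⟨l, A, hlp, hA, hlP, s, mem_inertiaSubgroupIn_of_integers A hlp hA s hsint, hsres⟩

end main

end Bridge

/-- **Bridge.** Every element of an inertia group of a finite Galois subextension `M` of
`Qbar / ℚ` is the restriction of an element of the inertia group (in the sense of the prelude)
of a valuation subring of `Qbar` lying over the same rational prime. -/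
theorem exists_inertia_lift (M : IntermediateField ℚ Qbar) [FiniteDimensional ℚ M] [IsGalois ℚ M]
    (P : Ideal (𝓞 M)) (hP : P.IsPrime) (hP0 : P ≠ ⊥) (σ : Gal(M/ℚ))
    (hs : σ ∈ Ideal.inertia Gal(M/ℚ) P) :
    ∃ (l : ℕ) (A : ValuationSubring Qbar), l.Prime ∧ A.LiesOverPrime l ∧ ((l : 𝓞 M) ∈ P) ∧
      ∃ s ∈ A.inertiaSubgroupIn ℚ, AlgEquiv.restrictNormalHom M s = σ :=
  haveI := Fermat.Agent.Lib.isGalois_algebraicClosure_rat
  Bridge.exists_inertia_lift_aux M P hP hP0 σ hs

/-- The bridge lemma in the packaged form of `BridgeDefs.lean`. -/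
theorem inertiaLift : InertiaLift := fun M _ _ P hP hP0 σ hs =>
  exists_inertia_lift M P hP hP0 σ hs

end Fermat.Agent.Lib.CFT.S14
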