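/-
helper93 (P-CFT, S14 side).  Interface between the three parts of the S14 proof:

* `NoOmegaInvExt p` : the number-field statement to which S14 reduces
  (no everywhere unramified cyclic degree-`p` extension `M / ℚ(ζ_p)`, Galois over `ℚ`,
  on which `Gal(ℚ(ζ_p)/ℚ)` acts through the inverse of the cyclotomic character);
* `ArtinUnramifiedCyclic p` : what is needed from class field theory
  (Artin reciprocity for unramified cyclic extensions of degree `p`);
* `StickelbergerDegOne p` : factorisation of the Jacobi sum attached to a prime of degree one.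

Only definitions (all are `Prop`s); the implications are proved in the sibling files.
-/
import Mathlib

set_option autoImplicit false

namespace Fermat.Agent.Lib.CFT.S14

open NumberField
open scoped Pointwise nonZeroDivisors

/-- `χ` is the mod-`p` cyclotomic character of `Gal(M/ℚ)`: every `σ` raises every `p`-th root of
unity to the power `χ σ`. -/
def IsCycloChar (p : ℕ) (M : Type) [Field M] [Algebra ℚ M] (χ : Gal(M/ℚ) →* (ZMod p)ˣ) : Prop :=
  ∀ (σ : Gal(M/ℚ)) (ζ : M), ζ ^ p = 1 → σ ζ = ζ ^ ((χ σ : ZMod p).val)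

/-- The number-field form of S14: there is no number field `M`, Galois over `ℚ`, containing the
`p`-th roots of unity, such that `H = Gal(M/ℚ(ζ_p)) = ker χ` has order `p`, conjugation by `σ`
acts on `H` as the power `χ(σ)⁻¹`, and `M/ℚ(ζ_p)` is unramified at every prime
(no nontrivial element of `H` lies in an inertia group). -/
def NoOmegaInvExt (p : ℕ) : Prop :=
  ∀ (M : Type) [Field M] [NumberField M] [IsGalois ℚ M] (χ : Gal(M/ℚ) →* (ZMod p)ˣ),
    IsCycloChar p M χ →
    (∃ ζ : M, IsPrimitiveRoot ζ p) →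
    Nat.card χ.ker = p →
    (∀ σ τ : Gal(M/ℚ), τ ∈ χ.ker → σ * τ * σ⁻¹ = τ ^ (((χ σ)⁻¹ : (ZMod p)ˣ) : ZMod p).val) →
    (∀ P : Ideal (𝓞 M), P.IsPrime → P ≠ ⊥ →
      ∀ σ ∈ Ideal.inertia Gal(M/ℚ) P, σ ∈ χ.ker → σ = 1) →
    False

/-- What S14 needs from class field theory: for an everywhere unramified Galois extension `M/K`
of number fields of prime degree `p`, with `μ_p ⊆ K`, there is a multiplicative map `φ` from the
nonzero ideals of `K` to `Gal(M/K)` sending every prime to its Frobenius element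
(the Artin map), which is trivial on principal ideals (Artin reciprocity) and not trivial on all
primes (a consequence of the first inequality). -/
def ArtinUnramifiedCyclic (p : ℕ) [Fact p.Prime] : Prop :=
  ∀ (K M : Type) [Field K] [NumberField K] [Field M] [NumberField M] [Algebra K M]
    [IsGalois K M],
    p ≠ 2 →
    (∃ ζ : K, IsPrimitiveRoot ζ p) →
    Module.finrank K M = p →
    (∀ P : Ideal (𝓞 M), P.IsPrime → P ≠ ⊥ → Ideal.inertia Gal(M/K) P = ⊥) →
    ∃ φ : (Ideal (𝓞 K))⁰ →* Gal(M/K),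
      (∀ (𝔮 : (Ideal (𝓞 K))⁰) (P : Ideal (𝓞 M)), (𝔮 : Ideal (𝓞 K)).IsPrime → P.IsPrime →
        P.LiesOver (𝔮 : Ideal (𝓞 K)) → IsArithFrobAt (𝓞 K) (φ 𝔮) P) ∧
      (∀ I : (Ideal (𝓞 K))⁰, Submodule.IsPrincipal (I : Ideal (𝓞 K)) → φ I = 1) ∧
      (∃ 𝔮 : (Ideal (𝓞 K))⁰, (𝔮 : Ideal (𝓞 K)).IsPrime ∧ φ 𝔮 ≠ 1)

/-- Stickelberger's theorem for primes of degree one, in the form needed for S14: if `𝔮` is a
prime of `ℚ(ζ_p)` of norm a rational prime `q ≠ p`, then the product of the conjugates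
`σ_t⁻¹ 𝔮`, `1 ≤ t ≤ (p-1)/2` (where `σ_t ζ = ζ ^ t`), is a principal ideal
(generated by a Jacobi sum). -/
def StickelbergerDegOne (p : ℕ) [Fact p.Prime] : Prop :=
  ∀ (K : Type) [Field K] [NumberField K] [IsCyclotomicExtension {p} ℚ K]
    (χ : Gal(K/ℚ) →* (ZMod p)ˣ), IsCycloChar p K χ →
    ∀ (𝔮 : Ideal (𝓞 K)) (q : ℕ), 𝔮.IsPrime → q.Prime → q ≠ p → Ideal.absNorm 𝔮 = q →
    ∃ J : 𝓞 K, Ideal.span {J} =
      ∏ σ ∈ Finset.univ.filter (fun σ : Gal(K/ℚ) => ((χ σ : (ZMod p)ˣ) : ZMod p).val ≤ (p - 1) / 2),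
        σ⁻¹ • 𝔮

end Fermat.Agent.Lib.CFT.S14
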