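/-
helper93 (P-CFT, S14 side).  Auxiliary lemmas for the endgame of S14:
Galois groups in a tower `ℚ ⊆ K ⊆ M`, action on ideals, conjugation of Frobenius elements,
and an elementary sum.
-/
import Mathlib
import Fermat.Agent.Lib.CFT.S14.Interface

set_option autoImplicit false

namespace Fermat.Agent.Lib.CFT.S14

open NumberField
open scoped Pointwise nonZeroDivisors

section Tower

variable {K M : Type} [Field K] [NumberField K] [Field M] [NumberField M] [Algebra K M]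

/-- The inclusion `Gal(M/K) → Gal(M/ℚ)`. -/
noncomputable def galIncl : Gal(M/K) →* Gal(M/ℚ) := AlgEquiv.restrictScalarsHom ℚ

theorem galIncl_apply (τ : Gal(M/K)) (x : M) : galIncl τ x = τ x := rfl

theorem galIncl_injective : Function.Injective (galIncl : Gal(M/K) →* Gal(M/ℚ)) := by
  intro a b h
  ext x
  have := congrArg (fun f : Gal(M/ℚ) => f x) h
  simpa [galIncl_apply] using this

theorem galIncl_smul (τ : Gal(M/K)) (x : 𝓞 M) : (galIncl τ : Gal(M/ℚ)) • x = τ • x := by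
  apply RingOfIntegers.ext
  rfl

variable [Normal ℚ K]

/-- An automorphism of `M` restricting to the identity on `K` comes from `Gal(M/K)`. -/
theorem exists_galIncl_eq {σ : Gal(M/ℚ)} (hσ : AlgEquiv.restrictNormalHom K σ = 1) :
    ∃ τ : Gal(M/K), galIncl τ = σ := by
  have hcomm : ∀ x : K, σ (algebraMap K M x) = algebraMap K M x := by
    intro x
    have h1 := AlgEquiv.restrictNormal_commutes σ K x
    have h2 : σ.restrictNormal K = 1 := hσ
    rw [h2] at h1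
    exact h1.symm
  refine ⟨{ (σ : M ≃+* M) with commutes' := hcomm }, ?_⟩
  ext x
  rfl

theorem restrict_galIncl (τ : Gal(M/K)) : AlgEquiv.restrictNormalHom K (galIncl τ) = 1 := by
  ext x
  apply (algebraMap K M).injective
  have h1 := AlgEquiv.restrictNormal_commutes (galIncl τ) K x
  rw [galIncl_apply, AlgEquiv.commutes] at h1
  exact h1

theorem algebraMap_restrict_smul (σ : Gal(M/ℚ)) (x : 𝓞 K) :
    algebraMap (𝓞 K) (𝓞 M) (AlgEquiv.restrictNormalHom K σ • x) =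
      σ • algebraMap (𝓞 K) (𝓞 M) x := by
  apply RingOfIntegers.ext
  exact AlgEquiv.restrictNormal_commutes σ K (x : K)

theorem under_smul (σ : Gal(M/ℚ)) (P : Ideal (𝓞 M)) :
    (σ • P).under (𝓞 K) = AlgEquiv.restrictNormalHom K σ • P.under (𝓞 K) := by
  ext x
  rw [Ideal.mem_pointwise_smul_iff_inv_smul_mem, Ideal.under_def, Ideal.mem_comap,
    Ideal.mem_pointwise_smul_iff_inv_smul_mem, Ideal.under_def, Ideal.mem_comap,
    ← map_inv, algebraMap_restrict_smul]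

end Tower


section Frob

variable {K M : Type} [Field K] [NumberField K] [Field M] [NumberField M] [Algebra K M]

/-- The residue ring of a conjugate ideal has the same cardinality. -/
theorem card_quot_smul (g : Gal(K/ℚ)) (I : Ideal (𝓞 K)) :
    Nat.card (𝓞 K ⧸ g • I) = Nat.card (𝓞 K ⧸ I) := by
  refine (Nat.card_congr (Ideal.quotientEquiv I (g • I)
    (MulSemiringAction.toRingEquiv (Gal(K/ℚ)) (𝓞 K) g) ?_).toEquiv).symm
  rw [Ideal.pointwise_smul_def]
  rfl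

variable [Normal ℚ K] [IsGalois K M]

/-- Conjugating a Frobenius element of `M/K` at `P` by `σ ∈ Gal(M/ℚ)` gives a Frobenius element
at `σ • P`. -/
theorem isArithFrobAt_conj {τ τ' : Gal(M/K)} {σ : Gal(M/ℚ)} {P : Ideal (𝓞 M)}
    (h : IsArithFrobAt (𝓞 K) τ P) (hτ' : galIncl τ' = σ * galIncl τ * σ⁻¹) :
    IsArithFrobAt (𝓞 K) τ' (σ • P) := by
  intro x
  have hcard : Nat.card (𝓞 K ⧸ (σ • P).under (𝓞 K)) = Nat.card (𝓞 K ⧸ P.under (𝓞 K)) := by
    rw [under_smul, card_quot_smul]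
  have h1 : τ' • x = σ • (τ • (σ⁻¹ • x)) := by
    rw [← galIncl_smul τ', hτ', mul_smul, mul_smul, galIncl_smul]
  have h2 := h (σ⁻¹ • x)
  show τ' • x - x ^ Nat.card (𝓞 K ⧸ (σ • P).under (𝓞 K)) ∈ σ • P
  rw [hcard, Ideal.mem_pointwise_smul_iff_inv_smul_mem, smul_sub, smul_pow', h1, inv_smul_smul]
  exact h2

/-- Two Frobenius elements at a prime with trivial inertia group coincide. -/
theorem isArithFrobAt_unique {τ τ' : Gal(M/K)} {P : Ideal (𝓞 M)}
    (hP : Ideal.inertia Gal(M/K) P = ⊥)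
    (h : IsArithFrobAt (𝓞 K) τ P) (h' : IsArithFrobAt (𝓞 K) τ' P) : τ = τ' := by
  have h1 := h.mul_inv_mem_inertia h'
  rw [hP, Subgroup.mem_bot] at h1
  exact mul_inv_eq_one.1 h1

end Frob

section NZ

variable {K : Type} [Field K] [NumberField K]

/-- The action of `Gal(K/ℚ)` on nonzero ideals. -/
noncomputable def smulNZ (g : Gal(K/ℚ)) (I : (Ideal (𝓞 K))⁰) : (Ideal (𝓞 K))⁰ :=
  ⟨g • (I : Ideal (𝓞 K)), by
    rw [mem_nonZeroDivisors_iff_ne_zero]
    intro h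
    have h1 : (I : Ideal (𝓞 K)) = ⊥ := by
      have h2 := congrArg (fun J : Ideal (𝓞 K) => g⁻¹ • J) h
      simpa [inv_smul_smul, Ideal.zero_eq_bot, Ideal.smul_bot] using h2
    exact (nonZeroDivisors.ne_zero I.2) h1⟩

theorem coe_smulNZ (g : Gal(K/ℚ)) (I : (Ideal (𝓞 K))⁰) :
    ((smulNZ g I : (Ideal (𝓞 K))⁰) : Ideal (𝓞 K)) = g • (I : Ideal (𝓞 K)) := rfl

end NZ


section Numeric

theorem sum_units_val_le (p : ℕ) [Fact p.Prime] :
    ∑ u ∈ (Finset.univ : Finset (ZMod p)ˣ).filter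
        (fun u => ((u : (ZMod p)ˣ) : ZMod p).val ≤ (p - 1) / 2), ((u : (ZMod p)ˣ) : ZMod p).val =
      ∑ t ∈ Finset.Icc 1 ((p - 1) / 2), t := by
  have hp : p.Prime := Fact.out
  refine Finset.sum_bij (fun u _ => ((u : (ZMod p)ˣ) : ZMod p).val) ?_ ?_ ?_ ?_
  · intro u hu
    rw [Finset.mem_filter] at hu
    rw [Finset.mem_Icc]
    refine ⟨?_, hu.2⟩
    have h0 : ((u : (ZMod p)ˣ) : ZMod p) ≠ 0 := u.ne_zero
    have : ((u : (ZMod p)ˣ) : ZMod p).val ≠ 0 := by
      rwa [Ne, ZMod.val_eq_zero]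
    omega
  · intro u _ v _ h
    exact Units.ext (ZMod.val_injective p h)
  · intro t ht
    rw [Finset.mem_Icc] at ht
    have htp : t < p := by
      have := hp.two_le
      omega
    have h0 : (t : ZMod p) ≠ 0 := by
      intro h
      rw [ZMod.natCast_eq_zero_iff] at h
      have := Nat.le_of_dvd (by omega) h
      omega
    refine ⟨Units.mk0 (t : ZMod p) h0, ?_, ?_⟩
    · rw [Finset.mem_filter]
      refine ⟨Finset.mem_univ _, ?_⟩
      rw [Units.val_mk0, ZMod.val_natCast_of_lt htp]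
      exact ht.2
    · rw [Units.val_mk0, ZMod.val_natCast_of_lt htp]
  · intro u _
    rfl

theorem not_dvd_sum_Icc (p : ℕ) [Fact p.Prime] (hp2 : p ≠ 2) :
    ¬ p ∣ ∑ t ∈ Finset.Icc 1 ((p - 1) / 2), t := by
  have hp : p.Prime := Fact.out
  have h3 : 3 ≤ p := by
    have := hp.two_le
    omega
  intro hdvd
  have h1 : ∀ m : ℕ, (∑ t ∈ Finset.Icc 1 m, t) * 2 = m * (m + 1) := by
    intro m
    induction m with
    | zero => simp
    | succ m ih =>
      rw [Finset.sum_Icc_succ_top (by omega), add_mul, ih]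
      ring
  have h2 : p ∣ ((p - 1) / 2) * ((p - 1) / 2 + 1) := by
    rw [← h1]
    exact Dvd.dvd.mul_right hdvd 2
  rcases (Nat.Prime.dvd_mul hp).1 h2 with h | h
  · have := Nat.le_of_dvd (by omega) h
    omega
  · have := Nat.le_of_dvd (by omega) h
    omega

/-- In a group of prime order `p`, an element killed by an exponent prime to `p` is trivial. -/
theorem eq_one_of_pow_eq_one_of_not_dvd {G : Type*} [Group G] {p : ℕ} [Fact p.Prime]
    (hG : Nat.card G = p) {g : G} {n : ℕ} (hn : ¬ p ∣ n) (h : g ^ n = 1) : g = 1 := by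
  have hp : p.Prime := Fact.out
  have : Finite G := Nat.finite_of_card_ne_zero (by rw [hG]; exact hp.ne_zero)
  have h1 : g ^ p = 1 := by rw [← hG]; exact pow_card_eq_one'
  have h2 := pow_gcd_eq_one.2 ⟨h, h1⟩
  have h3 : Nat.gcd n p = 1 := by
    rw [Nat.gcd_comm]
    exact (Nat.Prime.coprime_iff_not_dvd hp).2 hn
  rwa [h3, pow_one] at h2

end Numeric


section DegreeOne

open Polynomial

/-- If the trivial automorphism is a Frobenius element at `𝔮`, then `𝔮` has degree one. -/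
theorem absNorm_eq_of_isArithFrobAt_one {K : Type} [Field K] [NumberField K] [IsGalois ℚ K]
    (𝔮 : Ideal (𝓞 K)) [h𝔮 : 𝔮.IsPrime] (h0 : 𝔮 ≠ ⊥)
    (h : IsArithFrobAt ℤ (1 : Gal(K/ℚ)) 𝔮) :
    Ideal.absNorm 𝔮 = Ideal.absNorm (Ideal.under ℤ 𝔮) := by
  have : NeZero 𝔮 := ⟨h0⟩
  set ℓ := Ideal.absNorm (Ideal.under ℤ 𝔮) with hℓ
  have hℓprime : ℓ.Prime := Nat.absNorm_under_prime 𝔮
  have hmax : 𝔮.IsMaximal := Ideal.IsPrime.isMaximal h𝔮 h0
  letI : Field (𝓞 K ⧸ 𝔮) := Ideal.Quotient.field 𝔮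
  have hfin : Finite (𝓞 K ⧸ 𝔮) := Ideal.finiteQuotientOfFreeOfNeBot 𝔮 h0
  letI : Fintype (𝓞 K ⧸ 𝔮) := Fintype.ofFinite _
  classical
  have hN : Nat.card (ℤ ⧸ Ideal.under ℤ 𝔮) = ℓ := by
    rw [hℓ, Ideal.absNorm_apply, Submodule.cardQuot_apply]
  -- every element of the residue field is a root of `X ^ ℓ - X`
  have hroot : ∀ y : 𝓞 K ⧸ 𝔮, y ^ ℓ = y := by
    intro y
    obtain ⟨x, rfl⟩ := Ideal.Quotient.mk_surjective y
    have h1 := h x
    rw [hN] at h1
    rw [← map_pow, eq_comm, Ideal.Quotient.eq]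
    simpa using h1
  have hle : Fintype.card (𝓞 K ⧸ 𝔮) ≤ ℓ := by
    have hne : (X ^ ℓ - X : (𝓞 K ⧸ 𝔮)[X]) ≠ 0 := FiniteField.X_pow_card_sub_X_ne_zero _ hℓprime.one_lt
    have hsub : (Finset.univ : Finset (𝓞 K ⧸ 𝔮)) ⊆ (X ^ ℓ - X : (𝓞 K ⧸ 𝔮)[X]).roots.toFinset := by
      intro y _
      rw [Multiset.mem_toFinset, mem_roots hne]
      simp [hroot y]
    calc Fintype.card (𝓞 K ⧸ 𝔮) = (Finset.univ : Finset (𝓞 K ⧸ 𝔮)).card := rfl
      _ ≤ (X ^ ℓ - X : (𝓞 K ⧸ 𝔮)[X]).roots.toFinset.card := Finset.card_le_card hsub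
      _ ≤ Multiset.card (X ^ ℓ - X : (𝓞 K ⧸ 𝔮)[X]).roots := Multiset.toFinset_card_le _
      _ ≤ (X ^ ℓ - X : (𝓞 K ⧸ 𝔮)[X]).natDegree := card_roots' _
      _ = ℓ := FiniteField.X_pow_card_sub_X_natDegree_eq _ hℓprime.one_lt
  have habs : Ideal.absNorm 𝔮 = Fintype.card (𝓞 K ⧸ 𝔮) := by
    rw [Ideal.absNorm_apply, Submodule.cardQuot_apply, Nat.card_eq_fintype_card]
  have hdvd : ℓ ∣ Ideal.absNorm 𝔮 := Int.absNorm_under_dvd_absNorm 𝔮
  have hpos : Ideal.absNorm 𝔮 ≠ 0 := by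
    rw [Ne, Ideal.absNorm_eq_zero_iff]
    exact h0
  have := Nat.le_of_dvd (Nat.pos_of_ne_zero hpos) hdvd
  rw [habs] at this ⊢
  omega

end DegreeOne

end Fermat.Agent.Lib.CFT.S14
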