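/-
helper93 (P-CFT, S14 side).  The endgame of S14 for an abstract tower `ℚ ⊆ K ⊆ M` with
`K = ℚ(ζ_p)`: Artin reciprocity for `M/K` plus the Jacobi-sum Stickelberger theorem contradict the
existence of an unramified cyclic extension `M/K` of degree `p` on which `Gal(K/ℚ)` acts through
the inverse cyclotomic character.
-/
import Mathlib
import Fermat.Agent.Lib.CFT.S14.Interface
import Fermat.Agent.Lib.CFT.S14.FinalAux

set_option autoImplicit false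

namespace Fermat.Agent.Lib.CFT.S14

open NumberField
open scoped Pointwise nonZeroDivisors

section Endgame

variable {p : ℕ} [Fact p.Prime]
variable {K M : Type} [Field K] [NumberField K] [Field M] [NumberField M] [Algebra K M]
  [IsGalois ℚ K] [IsGalois ℚ M] [IsGalois K M]

/-- Twisted equivariance of the Artin map: `φ(σ 𝔮) = φ(𝔮) ^ (χ σ)⁻¹`. -/
theorem artin_equivariant
    (χ : Gal(M/ℚ) →* (ZMod p)ˣ)
    (hker : ∀ σ : Gal(M/ℚ), σ ∈ χ.ker ↔ AlgEquiv.restrictNormalHom K σ = 1)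
    (hconj : ∀ σ τ : Gal(M/ℚ), τ ∈ χ.ker →
      σ * τ * σ⁻¹ = τ ^ (((χ σ)⁻¹ : (ZMod p)ˣ) : ZMod p).val)
    (hunr : ∀ P : Ideal (𝓞 M), P.IsPrime → P ≠ ⊥ → Ideal.inertia Gal(M/K) P = ⊥)
    (φ : (Ideal (𝓞 K))⁰ →* Gal(M/K))
    (hφ : ∀ (𝔮 : (Ideal (𝓞 K))⁰) (P : Ideal (𝓞 M)), (𝔮 : Ideal (𝓞 K)).IsPrime → P.IsPrime →
        P.LiesOver (𝔮 : Ideal (𝓞 K)) → IsArithFrobAt (𝓞 K) (φ 𝔮) P)
    (σ : Gal(M/ℚ)) (𝔮 : (Ideal (𝓞 K))⁰) (h𝔮 : (𝔮 : Ideal (𝓞 K)).IsPrime) :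
    φ (smulNZ (AlgEquiv.restrictNormalHom K σ) 𝔮) =
      φ 𝔮 ^ (((χ σ)⁻¹ : (ZMod p)ˣ) : ZMod p).val := by
  -- a prime of `M` above `𝔮`
  obtain ⟨⟨P, hPprime, hPover⟩⟩ := (𝔮 : Ideal (𝓞 K)).nonempty_primesOver (S := 𝓞 M)
  have h𝔮0 : (𝔮 : Ideal (𝓞 K)) ≠ ⊥ := nonZeroDivisors.ne_zero 𝔮.2
  have hP0 : P ≠ ⊥ := by
    intro h
    apply h𝔮0
    rw [hPover.over, h]
    exact Ideal.under_bot _ _
  set τ := φ 𝔮 with hτ
  have hF : IsArithFrobAt (𝓞 K) τ P := hφ 𝔮 P h𝔮 hPprime hPover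
  -- the conjugate of `τ`
  have hτker : galIncl τ ∈ χ.ker := (hker _).2 (restrict_galIncl τ)
  have hconjker : σ * galIncl τ * σ⁻¹ ∈ χ.ker :=
    (MonoidHom.normal_ker χ).conj_mem _ hτker σ
  obtain ⟨τ', hτ'⟩ := exists_galIncl_eq (K := K) ((hker _).1 hconjker)
  have hF' : IsArithFrobAt (𝓞 K) τ' (σ • P) := isArithFrobAt_conj hF hτ'
  -- the prime `σ • P` lies over `σ • 𝔮`
  have hσPprime : (σ • P).IsPrime := inferInstance
  have hσP0 : σ • P ≠ ⊥ := by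
    intro h
    apply hP0
    have h2 := congrArg (fun J : Ideal (𝓞 M) => σ⁻¹ • J) h
    simpa [inv_smul_smul, Ideal.smul_bot] using h2
  have hσ𝔮prime : ((smulNZ (AlgEquiv.restrictNormalHom K σ) 𝔮 : (Ideal (𝓞 K))⁰) :
      Ideal (𝓞 K)).IsPrime := by
    rw [coe_smulNZ]
    infer_instance
  have hover : (σ • P).LiesOver
      ((smulNZ (AlgEquiv.restrictNormalHom K σ) 𝔮 : (Ideal (𝓞 K))⁰) : Ideal (𝓞 K)) := by
    constructor
    rw [coe_smulNZ, under_smul, ← hPover.over]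
  have hF'' := hφ (smulNZ (AlgEquiv.restrictNormalHom K σ) 𝔮) (σ • P) hσ𝔮prime hσPprime hover
  have huniq := isArithFrobAt_unique (hunr (σ • P) hσPprime hσP0) hF'' hF'
  rw [huniq]
  apply galIncl_injective
  rw [hτ', hconj σ (galIncl τ) hτker, map_pow]


/-- The Artin symbol of a product of conjugates of `𝔮`. -/
theorem artin_prod_conj {G : Type*} [Group G] (φ : (Ideal (𝓞 K))⁰ →* G)
    (𝔮 : (Ideal (𝓞 K))⁰) (e : Gal(K/ℚ) → ℕ)
    (hE : ∀ g : Gal(K/ℚ), φ (smulNZ g 𝔮) = φ 𝔮 ^ e g) (S : Finset Gal(K/ℚ)) :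
    φ (∏ σ ∈ S, smulNZ σ⁻¹ 𝔮) = φ 𝔮 ^ (∑ σ ∈ S, e σ⁻¹) := by
  classical
  induction S using Finset.induction_on with
  | empty => simp
  | insert a S ha ih =>
    rw [Finset.prod_insert ha, Finset.sum_insert ha, map_mul, ih, hE, pow_add]

/-- **Endgame of S14** for an abstract tower `ℚ ⊆ K ⊆ M`, `K = ℚ(ζ_p)`. -/
theorem endgame (hp2 : p ≠ 2) [IsCyclotomicExtension {p} ℚ K]
    (hA : ArtinUnramifiedCyclic p) (hS : StickelbergerDegOne p)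
    (χ : Gal(M/ℚ) →* (ZMod p)ˣ) (hχ : IsCycloChar p M χ)
    (hker : ∀ σ : Gal(M/ℚ), σ ∈ χ.ker ↔ AlgEquiv.restrictNormalHom K σ = 1)
    (hdeg : Module.finrank K M = p)
    (hconj : ∀ σ τ : Gal(M/ℚ), τ ∈ χ.ker →
      σ * τ * σ⁻¹ = τ ^ (((χ σ)⁻¹ : (ZMod p)ˣ) : ZMod p).val)
    (hunr : ∀ P : Ideal (𝓞 M), P.IsPrime → P ≠ ⊥ → Ideal.inertia Gal(M/K) P = ⊥) : False := by
  have hp : p.Prime := Fact.out
  have hpne : NeZero p := ⟨hp.ne_zero⟩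
  have hp1 : Fact (1 < p) := ⟨hp.one_lt⟩
  -- a primitive root in `K`
  have hζK := IsCyclotomicExtension.zeta_spec p ℚ K
  obtain ⟨φ, hφ, hprin, 𝔮₀, h𝔮₀, hne⟩ :=
    hA K M hp2 ⟨IsCyclotomicExtension.zeta p ℚ K, hζK⟩ hdeg hunr
  -- restriction to `K` and the cyclotomic character of `K`
  let res : Gal(M/ℚ) →* Gal(K/ℚ) := AlgEquiv.restrictNormalHom K
  have hres_surj : Function.Surjective res := AlgEquiv.restrictNormalHom_surjective M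
  have hle : res.ker ≤ χ.ker := fun σ hσ => (hker σ).2 hσ
  let χK : Gal(K/ℚ) →* (ZMod p)ˣ :=
    res.liftOfRightInverse (Function.surjInv hres_surj) (Function.rightInverse_surjInv hres_surj)
      ⟨χ, hle⟩
  have hχK : ∀ σ, χK (res σ) = χ σ := fun σ =>
    MonoidHom.liftOfRightInverse_comp_apply _ _ _ ⟨χ, hle⟩ σ
  have hχKcyc : IsCycloChar p K χK := by
    intro g ζ' hζ'
    obtain ⟨σ, rfl⟩ := hres_surj g
    rw [hχK]
    apply (algebraMap K M).injective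
    rw [map_pow, ← hχ σ (algebraMap K M ζ') (by rw [← map_pow, hζ', map_one])]
    exact AlgEquiv.restrictNormal_commutes σ K ζ'
  have hχKinj : Function.Injective χK := by
    rw [injective_iff_map_eq_one]
    intro g hg
    obtain ⟨σ, rfl⟩ := hres_surj g
    rw [hχK] at hg
    exact (hker σ).1 hg
  have hχKbij : Function.Bijective χK := by
    refine hχKinj.bijective_of_nat_card_le ?_
    rw [IsGalois.card_aut_eq_finrank,
      IsCyclotomicExtension.finrank K (Polynomial.cyclotomic.irreducible_rat hp.pos),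
      Nat.card_eq_fintype_card, ZMod.card_units_eq_totient]
  -- equivariance in terms of `Gal(K/ℚ)`
  have hE : ∀ (g : Gal(K/ℚ)) (𝔮 : (Ideal (𝓞 K))⁰), (𝔮 : Ideal (𝓞 K)).IsPrime →
      φ (smulNZ g 𝔮) = φ 𝔮 ^ (((χK g)⁻¹ : (ZMod p)ˣ) : ZMod p).val := by
    intro g 𝔮 h𝔮
    obtain ⟨σ, rfl⟩ := hres_surj g
    rw [hχK]
    exact artin_equivariant χ hker hconj hunr φ hφ σ 𝔮 h𝔮
  have hcardG : Nat.card Gal(M/K) = p := by rw [IsGalois.card_aut_eq_finrank, hdeg]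
  -- the residue characteristic of `𝔮₀`
  have h𝔮₀0 : (𝔮₀ : Ideal (𝓞 K)) ≠ ⊥ := nonZeroDivisors.ne_zero 𝔮₀.2
  have hnz : NeZero (𝔮₀ : Ideal (𝓞 K)) := ⟨h𝔮₀0⟩
  set ℓ := Ideal.absNorm (Ideal.under ℤ (𝔮₀ : Ideal (𝓞 K))) with hℓ
  have hℓprime : ℓ.Prime := Nat.absNorm_under_prime _
  have hℓover : (𝔮₀ : Ideal (𝓞 K)).LiesOver (Ideal.span {(ℓ : ℤ)}) :=
    Int.liesOver_span_absNorm _
  by_cases hℓp : ℓ = p
  · -- the prime above `p` is principal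
    rw [hℓp] at hℓover
    have h1 := IsCyclotomicExtension.Rat.eq_span_zeta_sub_one_of_liesOver' p K hζK
      (𝔮₀ : Ideal (𝓞 K))
    apply hne
    apply hprin
    rw [h1]
    exact ⟨⟨_, rfl⟩⟩
  · -- a Frobenius element of `K/ℚ` at `𝔮₀`
    have hfin : Finite (𝓞 K ⧸ (𝔮₀ : Ideal (𝓞 K))) := Ideal.finiteQuotientOfFreeOfNeBot _ h𝔮₀0
    obtain ⟨σ₁, hσ₁⟩ := IsArithFrobAt.exists_of_isInvariant ℤ Gal(K/ℚ) (𝔮₀ : Ideal (𝓞 K))
    have hstab : σ₁ • (𝔮₀ : Ideal (𝓞 K)) = (𝔮₀ : Ideal (𝓞 K)) := hσ₁.mem_stabilizer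
    have hstab' : smulNZ σ₁ 𝔮₀ = 𝔮₀ := Subtype.ext hstab
    have h2 := hE σ₁ 𝔮₀ h𝔮₀
    rw [hstab'] at h2
    set k := (((χK σ₁)⁻¹ : (ZMod p)ˣ) : ZMod p).val with hk
    have hk0 : k ≠ 0 := by
      rw [hk, Ne, ZMod.val_eq_zero]
      exact Units.ne_zero _
    have hklt : k < p := ZMod.val_lt _
    have h3 : φ 𝔮₀ ^ (k - 1) = 1 := by
      have h4 : φ 𝔮₀ ^ (k - 1) * φ 𝔮₀ = 1 * φ 𝔮₀ := by
        rw [← pow_succ, Nat.sub_add_cancel (Nat.pos_of_ne_zero hk0), one_mul]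
        exact h2.symm
      exact mul_right_cancel h4
    have hk1 : k = 1 := by
      by_contra hk1
      apply hne
      refine eq_one_of_pow_eq_one_of_not_dvd hcardG ?_ h3
      intro hdvd
      have := Nat.le_of_dvd (by omega) hdvd
      omega
    have hσ₁one : σ₁ = 1 := by
      apply hχKinj
      rw [map_one]
      apply inv_injective
      apply Units.ext
      rw [inv_one, Units.val_one, ← ZMod.natCast_zmod_val (((χK σ₁)⁻¹ : (ZMod p)ˣ) : ZMod p), ← hk,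
        hk1, Nat.cast_one]
    rw [hσ₁one] at hσ₁
    have habs : Ideal.absNorm (𝔮₀ : Ideal (𝓞 K)) = ℓ :=
      absNorm_eq_of_isArithFrobAt_one (𝔮₀ : Ideal (𝓞 K)) h𝔮₀0 hσ₁
    -- Stickelberger
    obtain ⟨J, hJ⟩ := hS K χK hχKcyc (𝔮₀ : Ideal (𝓞 K)) ℓ h𝔮₀ hℓprime hℓp habs
    set T : Finset Gal(K/ℚ) := Finset.univ.filter
      (fun σ : Gal(K/ℚ) => ((χK σ : (ZMod p)ˣ) : ZMod p).val ≤ (p - 1) / 2) with hT
    have hprod : φ (∏ σ ∈ T, smulNZ σ⁻¹ 𝔮₀) = 1 := by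
      apply hprin
      rw [Submonoid.coe_finsetProd]
      simp only [coe_smulNZ]
      rw [← hJ]
      exact ⟨⟨_, rfl⟩⟩
    rw [artin_prod_conj φ 𝔮₀ (fun g => (((χK g)⁻¹ : (ZMod p)ˣ) : ZMod p).val)
      (fun g => hE g 𝔮₀ h𝔮₀) T] at hprod
    have hsum : ∑ σ ∈ T, (((χK σ⁻¹)⁻¹ : (ZMod p)ˣ) : ZMod p).val =
        ∑ t ∈ Finset.Icc 1 ((p - 1) / 2), t := by
      rw [← sum_units_val_le p]
      refine Finset.sum_equiv (Equiv.ofBijective χK hχKbij) ?_ ?_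
      · intro σ
        simp [hT]
      · intro σ _
        simp
    rw [hsum] at hprod
    exact hne (eq_one_of_pow_eq_one_of_not_dvd hcardG (not_dvd_sum_Icc p hp2) hprod)

end Endgame

end Fermat.Agent.Lib.CFT.S14
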