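/-
helper93 (P-CFT, S14 side).  `NoOmegaInvExt p` from Artin reciprocity for unramified cyclic
extensions of degree `p` and the Jacobi-sum Stickelberger theorem.
-/
import Mathlib
import Fermat.Agent.Lib.CFT.S14.Interface
import Fermat.Agent.Lib.CFT.S14.FinalAux
import Fermat.Agent.Lib.CFT.S14.FinalAbstract

set_option autoImplicit false

namespace Fermat.Agent.Lib.CFT.S14

open NumberField IntermediateField
open scoped Pointwise nonZeroDivisors

section

variable {p : ℕ} [Fact p.Prime] {M : Type} [Field M] [NumberField M]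
  {χ : Gal(M/ℚ) →* (ZMod p)ˣ} (hχ : IsCycloChar p M χ) {ζ : M} (hζ : IsPrimitiveRoot ζ p)

include hχ hζ in
theorem mem_ker_iff_fix (σ : Gal(M/ℚ)) : σ ∈ χ.ker ↔ σ ζ = ζ := by
  have hp1 : Fact (1 < p) := ⟨(Fact.out : p.Prime).one_lt⟩
  rw [MonoidHom.mem_ker, hχ σ ζ hζ.pow_eq_one]
  constructor
  · intro h
    rw [h, Units.val_one, ZMod.val_one, pow_one]
  · intro h
    have h1 : ζ ^ ((χ σ : (ZMod p)ˣ) : ZMod p).val = ζ ^ 1 := by rw [h, pow_one]
    have h2 := hζ.pow_inj (ZMod.val_lt _) (Fact.out : p.Prime).one_lt h1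
    apply Units.ext
    rw [Units.val_one, ← ZMod.natCast_zmod_val ((χ σ : (ZMod p)ˣ) : ZMod p), h2, Nat.cast_one]

include hχ hζ in
theorem fixingSubgroup_adjoin_eq : (ℚ⟮ζ⟯).fixingSubgroup = χ.ker := by
  ext σ
  rw [mem_ker_iff_fix hχ hζ, IntermediateField.mem_fixingSubgroup_iff]
  constructor
  · intro h
    exact h ζ (mem_adjoin_simple_self ℚ ζ)
  · intro h x hx
    have h1 : ((σ : M →ₐ[ℚ] M).comp (ℚ⟮ζ⟯).val) = (ℚ⟮ζ⟯).val := by
      apply adjoin_algHom_ext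
      intro y hy
      rw [Set.mem_singleton_iff] at hy
      subst hy
      exact h
    exact congrArg (fun f : ℚ⟮ζ⟯ →ₐ[ℚ] M => f ⟨x, hx⟩) h1

end

/-- **S14, number-field form**: Artin reciprocity for unramified cyclic extensions of degree `p`
and the Jacobi-sum Stickelberger theorem imply `NoOmegaInvExt p`. -/
theorem noOmegaInvExt_of_artin_of_stickelberger {p : ℕ} [Fact p.Prime] (hp2 : p ≠ 2)
    (hA : ArtinUnramifiedCyclic p) (hS : StickelbergerDegOne p) : NoOmegaInvExt p := by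
  intro M _ _ _ χ hχ hprim hcard hconj hunr
  obtain ⟨ζ, hζ⟩ := hprim
  have hpne : NeZero p := ⟨(Fact.out : p.Prime).ne_zero⟩
  have hfixK : (ℚ⟮ζ⟯).fixingSubgroup = χ.ker := fixingSubgroup_adjoin_eq hχ hζ
  have hcyc : IsCyclotomicExtension {p} ℚ ℚ⟮ζ⟯ :=
    hζ.intermediateField_adjoin_isCyclotomicExtension ℚ
  have hgalK : IsGalois ℚ ℚ⟮ζ⟯ := IsCyclotomicExtension.isGalois {p} ℚ ℚ⟮ζ⟯
  have hnormK : Normal ℚ ℚ⟮ζ⟯ := hgalK.to_normal
  have hdeg : Module.finrank ℚ⟮ζ⟯ M = p := by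
    rw [← IsGalois.card_fixingSubgroup_eq_finrank, hfixK, hcard]
  have hker : ∀ σ : Gal(M/ℚ), σ ∈ χ.ker ↔ AlgEquiv.restrictNormalHom ℚ⟮ζ⟯ σ = 1 := by
    intro σ
    rw [← hfixK, IntermediateField.mem_fixingSubgroup_iff]
    constructor
    · intro h
      ext x
      have h1 := AlgEquiv.restrictNormal_commutes σ ℚ⟮ζ⟯ x
      exact h1.trans (h _ x.2)
    · intro h x hx
      have h1 := AlgEquiv.restrictNormal_commutes σ ℚ⟮ζ⟯ ⟨x, hx⟩
      have h2 : σ.restrictNormal ℚ⟮ζ⟯ = 1 := h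
      rw [h2] at h1
      exact h1.symm
  have hunr' : ∀ P : Ideal (𝓞 M), P.IsPrime → P ≠ ⊥ → Ideal.inertia Gal(M/ℚ⟮ζ⟯) P = ⊥ := by
    intro P hP hP0
    rw [eq_bot_iff]
    intro τ hτ
    rw [Subgroup.mem_bot]
    apply galIncl_injective
    rw [map_one]
    refine hunr P hP hP0 (galIncl τ) ?_ ?_
    · intro x
      rw [galIncl_smul]
      exact hτ x
    · rw [hker]
      exact restrict_galIncl τ
  exact endgame hp2 hA hS χ hχ hker hdeg hconj hunr'

end Fermat.Agent.Lib.CFT.S14
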