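/-
helper93 (P-CFT, S14 side).  Abstract algebra behind the reduction of S14:
a group `Γ` acting `𝔽_p`-linearly on a plane `V`, trivially on a line `C` and through a character
`χ` on `V / C`.
-/
import Mathlib

set_option autoImplicit false

namespace Fermat.Agent.Lib.CFT.S14

variable {p : ℕ} [Fact p.Prime]
variable {V : Type*} [AddCommGroup V] [Module (ZMod p) V]
variable {Γ : Type*} [Group Γ]

/-- `Γ` acts on `V` through `ρ`, trivially on the submodule `C`, and through the character `χ`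
on the quotient `V / C`. -/
structure ExtData (C : Submodule (ZMod p) V) (ρ : Γ →* (V ≃ₗ[ZMod p] V))
    (χ : Γ →* (ZMod p)ˣ) : Prop where
  fixed : ∀ γ, ∀ x ∈ C, ρ γ x = x
  quot : ∀ γ x, ρ γ x - ((χ γ : (ZMod p)ˣ) : ZMod p) • x ∈ C

namespace ExtData

variable {C : Submodule (ZMod p) V} {ρ : Γ →* (V ≃ₗ[ZMod p] V)} {χ : Γ →* (ZMod p)ˣ}

/-- If `ker χ` acts trivially and `χ` is not trivial, the line `C` has a `Γ`-stable complement:
the `χ γ₀`-eigenspace of any `γ₀` with `χ γ₀ ≠ 1`. -/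
theorem exists_stable_compl (h : ExtData C ρ χ) (htriv : ∀ γ, χ γ = 1 → ρ γ = 1)
    (γ₀ : Γ) (hγ₀ : χ γ₀ ≠ 1) :
    ∃ C' : Submodule (ZMod p) V, (∀ γ, ∀ x ∈ C', ρ γ x ∈ C') ∧ IsCompl C C' := by
  set g : ZMod p := ((χ γ₀ : (ZMod p)ˣ) : ZMod p) with hg
  have hg1 : g - 1 ≠ 0 := by
    intro h0
    apply hγ₀
    have h1 : g = 1 := sub_eq_zero.1 h0
    exact Units.ext (by simpa [hg] using h1)
  -- the eigenspace
  let C' : Submodule (ZMod p) V :=
    LinearMap.ker ((ρ γ₀ : V →ₗ[ZMod p] V) - g • (LinearMap.id : V →ₗ[ZMod p] V))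
  have hC' : ∀ x, x ∈ C' ↔ ρ γ₀ x = g • x := by
    intro x
    simp only [C', LinearMap.mem_ker, LinearMap.sub_apply, LinearMap.smul_apply,
      LinearMap.id_coe, id_eq, sub_eq_zero, LinearEquiv.coe_coe]
  -- commutation
  have hcomm : ∀ γ x, ρ γ₀ (ρ γ x) = ρ γ (ρ γ₀ x) := by
    intro γ x
    have h1 : χ (γ₀⁻¹ * γ⁻¹ * γ₀ * γ) = 1 := by
      simp only [map_mul, map_inv]
      rw [mul_right_comm, inv_mul_cancel_right, inv_mul_cancel]
    have h2 := htriv _ h1
    have h3 : γ₀ * γ = γ * γ₀ * (γ₀⁻¹ * γ⁻¹ * γ₀ * γ) := by group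
    have h4 : ρ (γ₀ * γ) = ρ (γ * γ₀) := by
      rw [h3, map_mul ρ (γ * γ₀), h2, mul_one]
    have := congrArg (fun e : V ≃ₗ[ZMod p] V => e x) h4
    simpa [map_mul] using this
  refine ⟨C', ?_, ?_⟩
  · intro γ x hx
    rw [hC'] at hx ⊢
    rw [hcomm, hx, map_smul]
  · refine IsCompl.of_eq ?_ ?_
    · rw [eq_bot_iff]
      intro x hx
      obtain ⟨hxC, hxC'⟩ := hx
      have h1 := h.fixed γ₀ x hxC
      have h2 := (hC' x).1 hxC'
      rw [h1] at h2
      have h3 : (g - 1) • x = 0 := by rw [sub_smul, one_smul, ← h2, sub_self]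
      rcases smul_eq_zero.1 h3 with h4 | h4
      · exact absurd h4 hg1
      · simpa using h4
    · rw [eq_top_iff]
      intro x _
      set c : V := ρ γ₀ x - g • x with hc
      have hcC : c ∈ C := h.quot γ₀ x
      set a : ZMod p := (g - 1)⁻¹ with ha
      have hy : x + a • c ∈ C' := by
        rw [hC', map_add, map_smul, h.fixed γ₀ c hcC]
        have h5 : ρ γ₀ x = c + g • x := by rw [hc]; abel
        rw [h5, smul_add, smul_smul]
        have h7 : (g * a) • c = c + a • c := by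
          have h8 : g * a = 1 + a := by
            rw [ha]
            field_simp
            ring
          rw [h8, add_smul, one_smul]
        rw [h7]
        abel
      exact Submodule.mem_sup.2
        ⟨-(a • c), C.neg_mem (C.smul_mem a hcC), x + a • c, hy, by abel⟩


/-- Elements of `ker χ` move points only inside `C`. -/
theorem sub_mem_of_ker (h : ExtData C ρ χ) {τ : Γ} (hτ : χ τ = 1) (x : V) : ρ τ x - x ∈ C := by
  have := h.quot τ x
  simpa [hτ] using this

theorem pow_apply_of_ker (h : ExtData C ρ χ) {τ : Γ} (hτ : χ τ = 1) (k : ℕ) (x : V) :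
    ρ (τ ^ k) x = x + k • (ρ τ x - x) := by
  induction k with
  | zero => simp
  | succ k ih =>
    have hd : ρ τ x - x ∈ C := h.sub_mem_of_ker hτ x
    have h1 : ρ τ x = x + (ρ τ x - x) := by abel
    rw [pow_succ, map_mul, LinearEquiv.mul_apply]
    conv_lhs => rw [h1]
    rw [map_add, ih, h.fixed _ _ hd, succ_nsmul]
    abel

theorem conj_apply_of_ker (h : ExtData C ρ χ) (σ : Γ) {τ : Γ} (hτ : χ τ = 1) (x : V) :
    ρ (σ * τ * σ⁻¹) x = x + (((χ σ)⁻¹ : (ZMod p)ˣ) : ZMod p) • (ρ τ x - x) := by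
  set u : ZMod p := (((χ σ)⁻¹ : (ZMod p)ˣ) : ZMod p) with hu
  set y : V := ρ σ⁻¹ x with hy
  set c₁ : V := y - u • x with hc₁
  have hc₁C : c₁ ∈ C := by
    have h0 := h.quot σ⁻¹ x
    rw [map_inv χ] at h0
    exact h0
  have hyeq : y = u • x + c₁ := by rw [hc₁]; abel
  have hd : ρ τ x - x ∈ C := h.sub_mem_of_ker hτ x
  have h1 : ρ τ y = y + u • (ρ τ x - x) := by
    rw [hyeq, map_add, map_smul, h.fixed τ c₁ hc₁C, smul_sub]
    abel
  have h2 : ρ σ y = x := by
    rw [hy, ← LinearEquiv.mul_apply, ← map_mul, mul_inv_cancel, map_one]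
    rfl
  rw [map_mul, map_mul, LinearEquiv.mul_apply, LinearEquiv.mul_apply, ← hy, h1, map_add, h2,
    h.fixed σ _ (C.smul_mem u hd)]

/-- If the action is faithful, conjugation by `σ` acts on `ker χ` as the power `χ(σ)⁻¹`. -/
theorem conj_eq_pow (h : ExtData C ρ χ) (hρ : Function.Injective ρ) (σ τ : Γ) (hτ : τ ∈ χ.ker) :
    σ * τ * σ⁻¹ = τ ^ (((χ σ)⁻¹ : (ZMod p)ˣ) : ZMod p).val := by
  have hτ' : χ τ = 1 := hτ
  apply hρ
  ext x
  rw [h.conj_apply_of_ker σ hτ', h.pow_apply_of_ker hτ']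
  congr 1
  rw [← Nat.cast_smul_eq_nsmul (ZMod p), ZMod.natCast_zmod_val]


/-- Every vector is an integer multiple of a fixed `v₀ ∉ C` modulo `C`. -/
theorem exists_zsmul_add (hC : Nat.card C = p) (hV : Nat.card V = p ^ 2) {v₀ : V} (hv₀ : v₀ ∉ C)
    (x : V) : ∃ (k : ℤ) (c : V), c ∈ C ∧ x = k • v₀ + c := by
  have hp : p ≠ 0 := (Fact.out : p.Prime).ne_zero
  have hq : Nat.card (V ⧸ C) = p := by
    have h1 := Submodule.card_eq_card_quotient_mul_card C
    rw [hC, hV, pow_two] at h1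
    exact (Nat.eq_of_mul_eq_mul_left (Nat.pos_of_ne_zero hp) h1).symm
  have hne : (Submodule.Quotient.mk v₀ : V ⧸ C) ≠ 0 := by
    rwa [Ne, Submodule.Quotient.mk_eq_zero]
  have htop := zmultiples_eq_top_of_prime_card hq hne
  have hx : (Submodule.Quotient.mk x : V ⧸ C) ∈ AddSubgroup.zmultiples
      (Submodule.Quotient.mk v₀ : V ⧸ C) := by
    rw [htop]; trivial
  obtain ⟨k, hk⟩ := AddSubgroup.mem_zmultiples_iff.1 hx
  refine ⟨k, x - k • v₀, ?_, by abel⟩
  rw [← Submodule.Quotient.mk_eq_zero, Submodule.Quotient.mk_sub, ← hk]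
  simp


/-- A line in a plane is a proper subspace. -/
theorem exists_not_mem (hC : Nat.card C = p) (hV : Nat.card V = p ^ 2) : ∃ v₀ : V, v₀ ∉ C := by
  have hp : p.Prime := Fact.out
  by_contra hcon
  simp only [not_exists, not_not] at hcon
  have htop : C = ⊤ := eq_top_iff.2 fun x _ => hcon x
  have h1 : Nat.card C = Nat.card V := by
    rw [htop]
    exact Nat.card_congr (Submodule.topEquiv (R := ZMod p) (M := V)).toEquiv
  rw [hC, hV] at h1
  have : p * 1 = p * p := by rw [mul_one, ← pow_two]; exact h1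
  have := Nat.eq_of_mul_eq_mul_left hp.pos this
  exact hp.one_lt.ne this

/-- The kernel of the action is contained in the kernel of the character. -/
theorem ker_le (h : ExtData C ρ χ) (hC : Nat.card C = p) (hV : Nat.card V = p ^ 2) :
    ρ.ker ≤ χ.ker := by
  intro σ hσ
  obtain ⟨v₀, hv₀⟩ := exists_not_mem hC hV
  have h1 : ρ σ = 1 := hσ
  have h2 := h.quot σ v₀
  rw [h1] at h2
  by_contra hne
  have hne' : χ σ ≠ 1 := hne
  have h3 : (1 - ((χ σ : (ZMod p)ˣ) : ZMod p)) ≠ 0 := by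
    intro h0
    apply hne'
    have h4 : ((χ σ : (ZMod p)ˣ) : ZMod p) = 1 := (sub_eq_zero.1 h0).symm
    exact Units.ext (by simpa using h4)
  have h5 : (1 - ((χ σ : (ZMod p)ˣ) : ZMod p)) • v₀ ∈ C := by
    rw [sub_smul, one_smul]
    exact h2
  have h6 := C.smul_mem (1 - ((χ σ : (ZMod p)ˣ) : ZMod p))⁻¹ h5
  rw [smul_smul, inv_mul_cancel₀ h3, one_smul] at h6
  exact hv₀ h6

/-- If the action is faithful and `ker χ` is not trivial, then `ker χ` has order `p`. -/
theorem card_ker (h : ExtData C ρ χ) (hρ : Function.Injective ρ) (hC : Nat.card C = p)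
    (hV : Nat.card V = p ^ 2) {τ₀ : Γ} (hτ₀ : τ₀ ∈ χ.ker) (hne : τ₀ ≠ 1) :
    Nat.card χ.ker = p := by
  have hp : p.Prime := Fact.out
  -- a vector outside `C`
  obtain ⟨v₀, hv₀⟩ : ∃ v₀ : V, v₀ ∉ C := exists_not_mem hC hV
  -- the homomorphism `ker χ → C`
  let b : χ.ker →* Multiplicative C :=
    { toFun := fun τ => Multiplicative.ofAdd ⟨ρ τ v₀ - v₀, h.sub_mem_of_ker τ.2 v₀⟩
      map_one' := by
        apply Multiplicative.toAdd.injective
        apply Subtype.ext
        simp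
      map_mul' := by
        intro τ τ'
        apply Multiplicative.toAdd.injective
        apply Subtype.ext
        have hd' : ρ τ' v₀ - v₀ ∈ C := h.sub_mem_of_ker τ'.2 v₀
        have h1 : ρ (τ'.1) v₀ = v₀ + (ρ τ' v₀ - v₀) := by abel
        simp only [Subgroup.coe_mul, map_mul, LinearEquiv.mul_apply, toAdd_mul, toAdd_ofAdd,
          Submodule.coe_add]
        conv_lhs => rw [h1, map_add, h.fixed _ _ hd']
        abel }
  have hb : Function.Injective b := by
    rw [injective_iff_map_eq_one]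
    intro τ hτ
    have h1 : ρ τ v₀ - v₀ = 0 := by
      have := congrArg (fun c : Multiplicative C => ((Multiplicative.toAdd c : C) : V)) hτ
      simpa [b] using this
    have h2 : ρ τ v₀ = v₀ := sub_eq_zero.1 h1
    have h3 : ρ (τ : Γ) = 1 := by
      ext x
      obtain ⟨k, c, hc, rfl⟩ := exists_zsmul_add hC hV hv₀ x
      rw [map_add, map_zsmul, h2, h.fixed _ c hc]
      rfl
    have h4 : (τ : Γ) = 1 := hρ (by rw [h3, map_one])
    exact Subtype.ext h4
  have hdvd := Subgroup.card_dvd_of_injective b hb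
  have hcardC : Nat.card (Multiplicative C) = p :=
    (Nat.card_congr Multiplicative.toAdd).trans hC
  rw [hcardC] at hdvd
  rcases (Nat.dvd_prime hp).1 hdvd with h1 | h1
  · exfalso
    obtain ⟨hsub, _⟩ := Nat.card_eq_one_iff_unique.1 h1
    have := hsub.elim (⟨τ₀, hτ₀⟩ : χ.ker) 1
    exact hne (congrArg Subtype.val this)
  · exact h1

end ExtData

end Fermat.Agent.Lib.CFT.S14
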