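/-
helper93 (P-CFT, S14 side).  Reduction of S14 (`ExtCitation.ExtVanishingCts p`) to the
number-field statement `NoOmegaInvExt p`, given the bridge lemma `InertiaLift`.
-/
import Mathlib
import Fermat.Prelude.Def_ExtCitation_AdmissibleExtension_v2
import Fermat.Agent.Lib.FrobeniusExists
import Fermat.Agent.Lib.CFT.S14.Interface
import Fermat.Agent.Lib.CFT.S14.BridgeDefs
import Fermat.Agent.Lib.CFT.S14.Cocycle

set_option autoImplicit false

namespace Fermat.Agent.Lib.CFT.S14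

open NumberField

variable (p : ℕ) [Fact p.Prime]

/-- The mod `p` cyclotomic character of `Gal(ℚ̄/ℚ)` as a group homomorphism. -/
noncomputable def cycloCharQbar : (Qbar ≃ₐ[ℚ] Qbar) →* (ZMod p)ˣ :=
  haveI : NeZero p := ⟨(Fact.out : p.Prime).ne_zero⟩
  (modularCyclotomicCharacter Qbar (ExtCitation.card_rootsOfUnity_eq_self p)).comp
    (MulSemiringAction.toRingAut (Qbar ≃ₐ[ℚ] Qbar) Qbar)

theorem cycloExp_eq (σ : Qbar ≃ₐ[ℚ] Qbar) :
    ExtCitation.cycloExp p σ = ((cycloCharQbar p σ : (ZMod p)ˣ) : ZMod p).val := by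
  rfl

theorem cycloCharQbar_spec (σ : Qbar ≃ₐ[ℚ] Qbar) (ζ : Qbar) (hζ : ζ ^ p = 1) :
    σ ζ = ζ ^ ((cycloCharQbar p σ : (ZMod p)ˣ) : ZMod p).val := by
  have : NeZero p := ⟨(Fact.out : p.Prime).ne_zero⟩
  have h := modularCyclotomicCharacter.spec Qbar (ExtCitation.card_rootsOfUnity_eq_self p)
    (MulSemiringAction.toRingAut (Qbar ≃ₐ[ℚ] Qbar) Qbar σ)
    (t := ((rootsOfUnity.mkOfPowEq ζ hζ : rootsOfUnity p Qbar) : Qbarˣ))
    (rootsOfUnity.mkOfPowEq ζ hζ).2
  simpa [cycloCharQbar] using h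


theorem exists_primitiveRoot_Qbar : ∃ ζ : Qbar, IsPrimitiveRoot ζ p := by
  have : NeZero p := ⟨(Fact.out : p.Prime).ne_zero⟩
  have : NeZero (p : Qbar) := ⟨Nat.cast_ne_zero.mpr (NeZero.ne p)⟩
  exact HasEnoughRootsOfUnity.exists_primitiveRoot Qbar p

/-- For `p ≥ 3` the mod `p` cyclotomic character of `Gal(ℚ̄/ℚ)` is not trivial. -/
theorem exists_cycloCharQbar_ne_one (h3 : 3 ≤ p) : ∃ σ, cycloCharQbar p σ ≠ 1 := by
  have := Fermat.Agent.Lib.isGalois_algebraicClosure_rat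
  by_contra hcon
  simp only [not_exists, not_not] at hcon
  obtain ⟨ζ, hζ⟩ := exists_primitiveRoot_Qbar p
  have hp1 : Fact (1 < p) := ⟨(Fact.out : p.Prime).one_lt⟩
  have hfix : ∀ σ : Qbar ≃ₐ[ℚ] Qbar, σ ζ = ζ := by
    intro σ
    have := cycloCharQbar_spec p σ ζ hζ.pow_eq_one
    rw [hcon σ, Units.val_one, ZMod.val_one, pow_one] at this
    exact this
  have hmem : ζ ∈ Set.range (algebraMap ℚ Qbar) := by
    rw [InfiniteGalois.mem_range_algebraMap_iff_fixed]
    exact hfix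
  obtain ⟨q, hq⟩ := hmem
  have hq1 : q ^ p = 1 := by
    have h1 : algebraMap ℚ Qbar (q ^ p) = algebraMap ℚ Qbar 1 := by
      rw [map_pow, hq, hζ.pow_eq_one, map_one]
    exact (algebraMap ℚ Qbar).injective h1
  have hsq : ζ ^ 2 = 1 := by
    rcases pow_eq_one_iff_cases.1 hq1 with h | h | ⟨h, _⟩
    · exact absurd h (Fact.out : p.Prime).ne_zero
    · rw [← hq, h, map_one, one_pow]
    · rw [← hq, h, map_neg, map_one, neg_one_sq]
  have := hζ.dvd_of_pow_eq_one 2 hsq
  have := Nat.le_of_dvd (by norm_num) this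
  omega


section Main

variable {p}
variable {V : Type} [AddCommGroup V] [Module (ZMod p) V]
  [DistribMulAction (Qbar ≃ₐ[ℚ] Qbar) V] [SMulCommClass (Qbar ≃ₐ[ℚ] Qbar) (ZMod p) V]

/-- The Galois action on `V` as a homomorphism to the group of linear automorphisms. -/
noncomputable def actionHom : (Qbar ≃ₐ[ℚ] Qbar) →* (V ≃ₗ[ZMod p] V) :=
  DistribMulAction.toModuleAut (ZMod p) V

theorem actionHom_apply (σ : Qbar ≃ₐ[ℚ] Qbar) (x : V) : actionHom (p := p) σ x = σ • x := rfl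

theorem extData_of_admissible {C : Submodule (ZMod p) V}
    (hadm : ExtCitation.IsAdmissibleExtension p V C) :
    ExtData C (actionHom (p := p) (V := V)) (cycloCharQbar p) where
  fixed σ x hx := hadm.fixed_sub σ x hx
  quot σ x := by
    have h1 := hadm.cyclo_quot σ x
    rw [cycloExp_eq, ZMod.natCast_zmod_val] at h1
    exact h1

theorem mem_ker_actionHom_iff (σ : Qbar ≃ₐ[ℚ] Qbar) :
    σ ∈ (actionHom (p := p) (V := V)).ker ↔ ∀ v : V, σ • v = v := by
  rw [MonoidHom.mem_ker]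
  constructor
  · intro h v
    have := congrArg (fun e : V ≃ₗ[ZMod p] V => e v) h
    simpa [actionHom_apply] using this
  · intro h
    ext v
    exact h v

end Main


section NonSplit

variable {p}
variable {V : Type} [AddCommGroup V] [Module (ZMod p) V]
  [DistribMulAction (Qbar ≃ₐ[ℚ] Qbar) V] [SMulCommClass (Qbar ≃ₐ[ℚ] Qbar) (ZMod p) V]

/-- Elements of the inertia subgroup (Prelude form) lie in the decomposition subgroup. -/
theorem mem_decomposition_of_mem_inertiaIn (A : ValuationSubring Qbar) {s : Qbar ≃ₐ[ℚ] Qbar}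
    (hs : s ∈ A.inertiaSubgroupIn ℚ) : s ∈ A.decompositionSubgroup ℚ := by
  obtain ⟨t, _, rfl⟩ := Subgroup.mem_map.1 hs
  exact t.2

/-- An inertia element with trivial cyclotomic character acts trivially on `V`. -/
theorem inertia_acts_trivially {C : Submodule (ZMod p) V}
    (hadm : ExtCitation.IsAdmissibleExtension p V C) {ℓ : ℕ} (hℓ : ℓ.Prime)
    (A : ValuationSubring Qbar) (hA : A.LiesOverPrime ℓ) {s : Qbar ≃ₐ[ℚ] Qbar}
    (hs : s ∈ A.inertiaSubgroupIn ℚ) (hχ : cycloCharQbar p s = 1) (x : V) : s • x = x := by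
  by_cases hℓp : ℓ = p
  · subst hℓp
    obtain ⟨C', hC', hcompl⟩ := hadm.locally_split A hA
    have hsD := mem_decomposition_of_mem_inertiaIn A hs
    have hE := extData_of_admissible hadm
    have hx : x ∈ C ⊔ C' := by rw [hcompl.sup_eq_top]; trivial
    obtain ⟨c, hc, c', hc', rfl⟩ := Submodule.mem_sup.1 hx
    have h1 : s • c = c := hadm.fixed_sub s c hc
    have h2 : s • c' - c' ∈ C := hE.sub_mem_of_ker hχ c'
    have h3 : s • c' - c' ∈ C' := C'.sub_mem (hC' s hsD c' hc') hc'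
    have h4 : s • c' - c' = 0 := (Submodule.disjoint_def.1 hcompl.disjoint) _ h2 h3
    rw [smul_add, h1, sub_eq_zero.1 h4]
  · exact hadm.unramified_outside ℓ hℓ hℓp A hA s hs x

theorem nonsplit_false (hB : InertiaLift) (h : NoOmegaInvExt p) {C : Submodule (ZMod p) V}
    (hadm : ExtCitation.IsAdmissibleExtensionCts p V C) (h₀ : Qbar ≃ₐ[ℚ] Qbar)
    (hh₀χ : cycloCharQbar p h₀ = 1) (hh₀ρ : actionHom (p := p) (V := V) h₀ ≠ 1) : False := by
  have := Fermat.Agent.Lib.isGalois_algebraicClosure_rat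
  have hE := extData_of_admissible hadm.toIsAdmissibleExtension
  set ρ := actionHom (p := p) (V := V) with hρdef
  set χ' := cycloCharQbar p with hχdef
  -- the kernel of the action and its fixed field
  have hNopen : IsOpen ((ρ.ker : Subgroup (Qbar ≃ₐ[ℚ] Qbar)) : Set (Qbar ≃ₐ[ℚ] Qbar)) := by
    convert hadm.open_kernel using 1
    ext σ
    exact mem_ker_actionHom_iff σ
  let N : ClosedSubgroup (Qbar ≃ₐ[ℚ] Qbar) :=
    ⟨ρ.ker, Subgroup.isClosed_of_isOpen _ hNopen⟩
  let M : IntermediateField ℚ Qbar := IntermediateField.fixedField (N : Subgroup (Qbar ≃ₐ[ℚ] Qbar))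
  have hfix : M.fixingSubgroup = ρ.ker := InfiniteGalois.fixingSubgroup_fixedField N
  have hfin : FiniteDimensional ℚ M :=
    (InfiniteGalois.isOpen_iff_finite M).1 (by rw [hfix]; exact hNopen)
  have hgal : IsGalois ℚ M :=
    (InfiniteGalois.normal_iff_isGalois M).1 (by rw [hfix]; exact MonoidHom.normal_ker ρ)
  -- restriction to `M`
  let res : (Qbar ≃ₐ[ℚ] Qbar) →* Gal(M/ℚ) := AlgEquiv.restrictNormalHom M
  have hres_surj : Function.Surjective res := AlgEquiv.restrictNormalHom_surjective Qbar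
  have hres_ker : res.ker = ρ.ker := by rw [← hfix]; exact M.restrictNormalHom_ker
  have hNχ : ρ.ker ≤ χ'.ker := hE.ker_le hadm.card_sub hadm.card_total
  -- descend `ρ` and `χ'`
  let ρM : Gal(M/ℚ) →* (V ≃ₗ[ZMod p] V) :=
    res.liftOfRightInverse (Function.surjInv hres_surj) (Function.rightInverse_surjInv hres_surj)
      ⟨ρ, hres_ker.le⟩
  let χM : Gal(M/ℚ) →* (ZMod p)ˣ :=
    res.liftOfRightInverse (Function.surjInv hres_surj) (Function.rightInverse_surjInv hres_surj)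
      ⟨χ', hres_ker.le.trans hNχ⟩
  have hρM : ∀ σ, ρM (res σ) = ρ σ := fun σ =>
    MonoidHom.liftOfRightInverse_comp_apply _ _ _ ⟨ρ, hres_ker.le⟩ σ
  have hχM : ∀ σ, χM (res σ) = χ' σ := fun σ =>
    MonoidHom.liftOfRightInverse_comp_apply _ _ _ ⟨χ', hres_ker.le.trans hNχ⟩ σ
  have hEM : ExtData C ρM χM := by
    refine ⟨fun γ x hx => ?_, fun γ x => ?_⟩
    · obtain ⟨σ, rfl⟩ := hres_surj γ
      rw [hρM]
      exact hE.fixed σ x hx
    · obtain ⟨σ, rfl⟩ := hres_surj γ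
      rw [hρM, hχM]
      exact hE.quot σ x
  have hρM_inj : Function.Injective ρM := by
    rw [injective_iff_map_eq_one]
    intro γ hγ
    obtain ⟨σ, rfl⟩ := hres_surj γ
    rw [hρM] at hγ
    have : σ ∈ res.ker := by rw [hres_ker]; exact hγ
    exact this
  -- the hypotheses of `NoOmegaInvExt`
  have hcyc : IsCycloChar p M χM := by
    intro γ ζ hζ
    obtain ⟨σ, rfl⟩ := hres_surj γ
    rw [hχM]
    apply Subtype.ext
    have h1 : ((res σ ζ : M) : Qbar) = σ (ζ : Qbar) := AlgEquiv.restrictNormalHom_apply M σ ζ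
    rw [h1, SubmonoidClass.coe_pow]
    apply cycloCharQbar_spec
    rw [← SubmonoidClass.coe_pow, hζ]
    rfl
  have hprim : ∃ ζ : M, IsPrimitiveRoot ζ p := by
    obtain ⟨ζ, hζ⟩ := exists_primitiveRoot_Qbar p
    have hmem : ζ ∈ M := by
      rw [IntermediateField.mem_fixedField_iff]
      intro σ hσ
      have hσ' : χ' σ = 1 := hNχ hσ
      have hp1 : Fact (1 < p) := ⟨(Fact.out : p.Prime).one_lt⟩
      have := cycloCharQbar_spec p σ ζ hζ.pow_eq_one
      rw [← hχdef, hσ', Units.val_one, ZMod.val_one, pow_one] at this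
      exact this
    exact ⟨⟨ζ, hmem⟩, IsPrimitiveRoot.coe_submonoidClass_iff.1 hζ⟩
  have hτ₀ : res h₀ ∈ χM.ker := by
    rw [MonoidHom.mem_ker, hχM]
    exact hh₀χ
  have hτ₀ne : res h₀ ≠ 1 := by
    intro h1
    apply hh₀ρ
    have := hρM h₀
    rw [h1, map_one] at this
    exact this.symm
  have hcard : Nat.card χM.ker = p :=
    hEM.card_ker hρM_inj hadm.card_sub hadm.card_total hτ₀ hτ₀ne
  have hconj : ∀ σ τ : Gal(M/ℚ), τ ∈ χM.ker →
      σ * τ * σ⁻¹ = τ ^ (((χM σ)⁻¹ : (ZMod p)ˣ) : ZMod p).val :=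
    fun σ τ hτ => hEM.conj_eq_pow hρM_inj σ τ hτ
  have hunr : ∀ P : Ideal (𝓞 M), P.IsPrime → P ≠ ⊥ →
      ∀ σ ∈ Ideal.inertia Gal(M/ℚ) P, σ ∈ χM.ker → σ = 1 := by
    intro P hP hP0 σ hσ hσχ
    obtain ⟨ℓ, A, hℓ, hA, -, s, hs, rfl⟩ := hB M P hP hP0 σ hσ
    have hsχ : χ' s = 1 := by
      rw [← hχM]
      exact hσχ
    have hsρ : s ∈ ρ.ker := by
      rw [mem_ker_actionHom_iff]
      exact inertia_acts_trivially hadm.toIsAdmissibleExtension hℓ A hA hs hsχ
    have : s ∈ res.ker := by rw [hres_ker]; exact hsρ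
    exact this
  exact h M χM hcyc hprim hcard hconj hunr

end NonSplit

/-- **Reduction of S14**: the number-field statement `NoOmegaInvExt p` (together with the bridge
lemma) implies `ExtVanishingCts p`. -/
theorem extVanishingCts_of_noOmegaInvExt {p : ℕ} [Fact p.Prime] (hB : InertiaLift) (h3 : 3 ≤ p)
    (h : NoOmegaInvExt p) : ExtCitation.ExtVanishingCts p := by
  intro V _ _ _ _ C hadm
  have hE := extData_of_admissible hadm.toIsAdmissibleExtension
  by_cases htriv : ∀ σ, cycloCharQbar p σ = 1 → actionHom (p := p) (V := V) σ = 1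
  · obtain ⟨γ₀, hγ₀⟩ := exists_cycloCharQbar_ne_one p h3
    obtain ⟨C', hst, hcompl⟩ := hE.exists_stable_compl htriv γ₀ hγ₀
    exact ⟨C', fun σ x hx => hst σ x hx, hcompl⟩
  · exfalso
    simp only [not_forall] at htriv
    obtain ⟨h₀, hh₀χ, hh₀ρ⟩ := htriv
    exact nonsplit_false hB h hadm h₀ hh₀χ hh₀ρ

end Fermat.Agent.Lib.CFT.S14
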