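/-
helper93 (P-CFT, S14 side).  Assembly: S14 from the bridge lemma, Artin reciprocity for unramified
cyclic extensions of degree `p`, and the Jacobi-sum Stickelberger theorem.
-/
import Mathlib
import Fermat.Agent.Lib.CFT.S14.Reduction
import Fermat.Agent.Lib.CFT.S14.Final

set_option autoImplicit false

namespace Fermat.Agent.Lib.CFT.S14

/-- S14 follows from the three inputs `InertiaLift`, `ArtinUnramifiedCyclic p` and
`StickelbergerDegOne p`. -/
theorem extVanishingCts_of_inputs {p : ℕ} [Fact p.Prime] (h3 : 3 ≤ p) (hB : InertiaLift)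
    (hA : ArtinUnramifiedCyclic p) (hS : StickelbergerDegOne p) :
    ExtCitation.ExtVanishingCts p :=
  extVanishingCts_of_noOmegaInvExt hB h3
    (noOmegaInvExt_of_artin_of_stickelberger (by omega) hA hS)

end Fermat.Agent.Lib.CFT.S14
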