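import Mathlib
import Fermat.Prelude.Def_ClassGroup_GaloisAction
import Fermat.Prelude.Def_Stickelberger_Basic

/-!
# Stickelberger's theorem for Jacobi sums at primes of degree one

For an odd prime `p`, `K = ℚ(ζ_p)` and a prime ideal `Q` of `𝓞 K` of prime norm `ℓ ≠ p`, the
Jacobi sum `J = J(χ, χ)` of the `p`-th power residue character `χ` modulo `Q` generates the ideal
`∏_{0 < c < p/2} σ_c⁻¹(Q)`, where `σ_c ζ = ζ ^ c`.
-/

open Finset NumberField JacobiSumStickelberger Stickelberger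

namespace Fermat.Agent.Lib.CFT.S14.Stick

/-- `∑_{x ∈ F} x^a (1-x)^b = 0` in a finite field `F` when `a + b < #F - 1`. -/
theorem sum_pow_mul_one_sub_pow {F : Type*} [Field F] [Fintype F] (a b : ℕ)
    (h : a + b < Fintype.card F - 1) : ∑ x : F, x ^ a * (1 - x) ^ b = 0 := by
  have h1 : ∀ x : F, x ^ a * (1 - x) ^ b =
      ∑ k ∈ range (b + 1), ((-1) ^ k * (b.choose k : F)) * x ^ (a + k) := by
    intro x
    rw [sub_eq_neg_add, add_pow, Finset.mul_sum]
    refine Finset.sum_congr rfl fun k _ => ?_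
    rw [one_pow, mul_one, neg_pow, pow_add]
    ring
  simp_rw [h1]
  rw [Finset.sum_comm]
  refine Finset.sum_eq_zero fun k hk => ?_
  rw [← Finset.mul_sum, FiniteField.sum_pow_lt_card_sub_one, mul_zero]
  have := Finset.mem_range.mp hk
  omega

/-- Residue character: if `π : R →+* F` maps a primitive `p`-th root of unity `ζ` to a primitive
`p`-th root of unity of the finite field `F` and `#F - 1 = p * m`, there is a multiplicative
character `χ : F → R` with `χ ^ p = 1` lifting `x ↦ x ^ m`. -/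
theorem exists_mulChar_lift {R F : Type*} [CommRing R] [IsDomain R] [Field F] [Fintype F]
    (π : R →+* F) {p m : ℕ} (hp : 0 < p) {ζ : R} (hζ : IsPrimitiveRoot ζ p)
    (hζF : IsPrimitiveRoot (π ζ) p) (hm : Fintype.card F - 1 = p * m) (hm0 : 0 < m)
    (hp1 : 1 < p) :
    ∃ χ : MulChar F R, χ ^ p = 1 ∧ (∀ x : F, π (χ x) = x ^ m) ∧ χ ≠ 1 := by
  classical
  obtain ⟨g, hg⟩ := IsCyclic.exists_generator (α := Fˣ)
  have hcard : Fintype.card Fˣ = p * m := by rw [Fintype.card_units, hm]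
  -- `g ^ m` is a `p`-th root of unity
  have hgm : ((g : F) ^ m) ^ p = 1 := by
    rw [← pow_mul, mul_comm, ← hcard, ← Units.val_pow_eq_pow_val, pow_card_eq_one, Units.val_one]
  have : NeZero p := ⟨hp.ne'⟩
  obtain ⟨k, -, hk⟩ := hζF.eq_pow_of_pow_eq_one hgm
  -- the unit `ζ ^ k`
  let u : Rˣ := (hζ.isUnit hp.ne').unit ^ k
  have hu : u ∈ rootsOfUnity (Fintype.card Fˣ) R := by
    rw [mem_rootsOfUnity, hcard]
    ext
    simp only [u, Units.val_pow_eq_pow_val, IsUnit.unit_spec, Units.val_one]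
    rw [← pow_mul, show k * (p * m) = p * (k * m) by ring, pow_mul, hζ.pow_eq_one, one_pow]
  let χ : MulChar F R := MulChar.ofRootOfUnity hu hg
  have hχg : χ g = ζ ^ k := by
    have := MulChar.ofRootOfUnity_spec hu hg
    simp only [χ, this, u, Units.val_pow_eq_pow_val, IsUnit.unit_spec]
  have hχpow : ∀ n : ℕ, χ ((g : F) ^ n) = ζ ^ (k * n) := by
    intro n
    rw [map_pow, hχg, pow_mul]
  have hgen : ∀ x : F, x ≠ 0 → ∃ n : ℕ, x = (g : F) ^ n := by
    intro x hx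
    have h1 := ((isOfFinOrder_of_finite g).mem_powers_iff_mem_zpowers).mpr (hg (Units.mk0 x hx))
    obtain ⟨n, hn⟩ := Submonoid.mem_powers_iff _ _ |>.mp h1
    exact ⟨n, by rw [← Units.val_pow_eq_pow_val, hn, Units.val_mk0]⟩
  refine ⟨χ, ?_, ?_, ?_⟩
  rotate_left 2
  · intro hχ1
    have h1 : ζ ^ k = 1 := by rw [← hχg, hχ1, MulChar.one_apply_coe]
    have h2 : (g : F) ^ m = 1 := by rw [← hk, ← map_pow, h1, map_one]
    have h3 : g ^ m = 1 := by
      ext
      rw [Units.val_pow_eq_pow_val, h2, Units.val_one]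
    have h4 : orderOf g ∣ m := orderOf_dvd_of_pow_eq_one h3
    rw [orderOf_eq_card_of_forall_mem_zpowers hg, Nat.card_eq_fintype_card, hcard] at h4
    have h5 := Nat.le_of_dvd hm0 h4
    nlinarith
  · ext x
    obtain ⟨n, hn⟩ := hgen x x.ne_zero
    rw [MulChar.pow_apply_coe, MulChar.one_apply_coe, hn, hχpow, ← pow_mul, mul_comm, pow_mul,
      hζ.pow_eq_one, one_pow]
  · intro x
    by_cases hx : x = 0
    · subst hx
      rw [MulChar.map_zero, map_zero, zero_pow hm0.ne']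
    · obtain ⟨n, hn⟩ := hgen x hx
      rw [hn, hχpow, map_pow, pow_mul, hk, ← pow_mul, ← pow_mul, mul_comm]

/-- The Jacobi sum of `χ ^ t` with itself reduces to `0` when `χ` lifts `x ↦ x ^ m` and
`2 t m < #F - 1`. -/
theorem map_jacobiSum_pow_eq_zero {R F : Type*} [CommRing R] [Field F] [Fintype F]
    (π : R →+* F) (χ : MulChar F R) {m : ℕ} (hχ : ∀ x : F, π (χ x) = x ^ m) {t : ℕ} (ht0 : t ≠ 0)
    (ht : 2 * (t * m) < Fintype.card F - 1) : π (jacobiSum (χ ^ t) (χ ^ t)) = 0 := by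
  rw [jacobiSum, map_sum]
  rw [← sum_pow_mul_one_sub_pow (F := F) (t * m) (t * m) (by omega)]
  refine Finset.sum_congr rfl fun x _ => ?_
  rw [map_mul, MulChar.pow_apply' _ ht0, MulChar.pow_apply' _ ht0, map_pow, map_pow, hχ, hχ,
    ← pow_mul, ← pow_mul, mul_comm m t]

/-- The absolute norm is invariant under ring automorphisms. -/
theorem absNorm_map_ringEquiv {S : Type*} [CommRing S] [IsDedekindDomain S] [Module.Free ℤ S]
    [Module.Finite ℤ S] (e : S ≃+* S) (I : Ideal S) :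
    Ideal.absNorm (I.map (e : S →+* S)) = Ideal.absNorm I := by
  rw [Ideal.absNorm_apply, Ideal.absNorm_apply, Submodule.cardQuot_apply, Submodule.cardQuot_apply]
  exact (Nat.card_congr (Ideal.quotientEquiv I (I.map (e : S →+* S)) e rfl).toEquiv).symm

/-- A ring automorphism of a commutative ring stabilising an ideal with quotient of prime
cardinality acts trivially on the quotient. -/
theorem sub_mem_of_map_eq_of_card_prime {S : Type*} [CommRing S] (e : S ≃+* S) (I : Ideal S)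
    (h : I.map (e : S →+* S) = I) {ℓ : ℕ} (hℓ : ℓ.Prime) (hcard : Nat.card (S ⧸ I) = ℓ) (x : S) :
    e x - x ∈ I := by
  have : Finite (S ⧸ I) := Nat.finite_of_card_ne_zero (hcard ▸ hℓ.ne_zero)
  let _ : Fintype (S ⧸ I) := Fintype.ofFinite _
  have hcard' : Fintype.card (S ⧸ I) = ℓ := by rw [← Nat.card_eq_fintype_card, hcard]
  let f := ZMod.ringEquivOfPrime (S ⧸ I) hℓ hcard'
  let ebar : S ⧸ I ≃+* S ⧸ I := Ideal.quotientEquiv I I e h.symm
  have h1 : (ebar : S ⧸ I →+* S ⧸ I).comp (f : ZMod ℓ →+* S ⧸ I) = (f : ZMod ℓ →+* S ⧸ I) :=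
    Subsingleton.elim _ _
  have h2 : ∀ y : S ⧸ I, ebar y = y := by
    intro y
    obtain ⟨z, rfl⟩ := f.surjective y
    exact RingHom.congr_fun h1 z
  have h3 := h2 (Ideal.Quotient.mk I x)
  rw [Ideal.quotientEquiv_mk] at h3
  rw [← Ideal.Quotient.eq]
  exact h3

theorem exponentSet_eq_Icc (p : ℕ) : exponentSet p = Finset.Icc 1 ((p - 1) / 2) := by
  ext c
  simp only [mem_exponentSet, Finset.mem_Icc]
  omega

theorem card_exponentSet (p : ℕ) : (exponentSet p).card = (p - 1) / 2 := by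
  rw [exponentSet_eq_Icc, Nat.card_Icc]; omega

theorem coprime_of_mem_exponentSet {p : ℕ} [Fact p.Prime] {c : ℕ} (hc : c ∈ exponentSet p) :
    Nat.Coprime c p := by
  rw [mem_exponentSet] at hc
  rw [Nat.coprime_comm]
  exact (Nat.Prime.coprime_iff_not_dvd Fact.out).mpr (Nat.not_dvd_of_pos_of_lt hc.1 (by omega))

theorem val_expUnit {p : ℕ} [Fact p.Prime] {c : ℕ} (hc : c ∈ exponentSet p) :
    ((expUnit p c : (ZMod p)ˣ) : ZMod p).val = c := by
  have hcp := coprime_of_mem_exponentSet hc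
  rw [mem_exponentSet] at hc
  rw [expUnit, dif_pos hcp, ZMod.coe_unitOfCoprime, ZMod.val_natCast, Nat.mod_eq_of_lt (by omega)]

theorem expUnit_injOn {p : ℕ} [Fact p.Prime] {c d : ℕ} (hc : c ∈ exponentSet p)
    (hd : d ∈ exponentSet p) (h : expUnit p c = expUnit p d) : c = d := by
  rw [← val_expUnit hc, ← val_expUnit hd, h]

variable {p : ℕ} [hp : Fact p.Prime] (K : Type*) [Field K] [NumberField K]
  [IsCyclotomicExtension {p} ℚ K]

theorem algebraMap_clRingAction_apply (d : (ZMod p)ˣ) (x : 𝓞 K) :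
    algebraMap (𝓞 K) K (clRingAction p K d x) =
      (cycloGalEquiv p K).symm d (algebraMap (𝓞 K) K x) := by
  simp only [clRingAction, MonoidHom.comp_apply, MulEquiv.coe_toMonoidHom,
    galRestrictionDatum_apply]
  exact algebraMap_galRestrict_apply ℤ ((cycloGalEquiv p K).symm d) x

/-- The Galois automorphism attached to `d : (ZMod p)ˣ` raises `p`-th roots of unity of `𝓞 K` to
the `d`-th power. -/
theorem clRingAction_apply_of_pow_eq (d : (ZMod p)ˣ) {x : 𝓞 K} (hx : x ^ p = 1) :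
    clRingAction p K d x = x ^ (d : ZMod p).val := by
  apply FaithfulSMul.algebraMap_injective (𝓞 K) K
  rw [algebraMap_clRingAction_apply]
  have hx' : (algebraMap (𝓞 K) K x) ^ p = 1 := by
    rw [← map_pow, hx, map_one]
  have h2 := IsCyclotomicExtension.Rat.galEquivZMod_apply_of_pow_eq p K
    ((cycloGalEquiv p K).symm d) hx'
  rw [h2]
  have h3 : IsCyclotomicExtension.Rat.galEquivZMod p K ((cycloGalEquiv p K).symm d) = d :=
    (cycloGalEquiv p K).apply_symm_apply d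
  rw [h3, map_pow]

theorem map_map_clRingAction (u v : (ZMod p)ˣ) (I : Ideal (𝓞 K)) :
    (I.map ((clRingAction p K v : 𝓞 K ≃+* 𝓞 K) : 𝓞 K →+* 𝓞 K)).map
      ((clRingAction p K u : 𝓞 K ≃+* 𝓞 K) : 𝓞 K →+* 𝓞 K) =
    I.map ((clRingAction p K (u * v) : 𝓞 K ≃+* 𝓞 K) : 𝓞 K →+* 𝓞 K) := by
  rw [Ideal.map_map]
  congr 1
  ext x
  simp [map_mul, RingAut.mul_apply]

theorem map_clRingAction_one (I : Ideal (𝓞 K)) :
    I.map ((clRingAction p K 1 : 𝓞 K ≃+* 𝓞 K) : 𝓞 K →+* 𝓞 K) = I := by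
  have : ((clRingAction p K 1 : 𝓞 K ≃+* 𝓞 K) : 𝓞 K →+* 𝓞 K) = RingHom.id _ := by
    ext x
    simp [map_one, RingAut.one_apply]
  rw [this, Ideal.map_id]

/-- A prime of prime norm `ℓ ≠ p` has trivial stabiliser in `Gal(ℚ(ζ_p)/ℚ)`. -/
theorem eq_one_of_map_clRingAction_eq {ℓ : ℕ} (hℓ : ℓ.Prime) (hℓp : ℓ ≠ p)
    (Q : Ideal (𝓞 K)) (hQ : Ideal.absNorm Q = ℓ) (u : (ZMod p)ˣ)
    (h : Q.map ((clRingAction p K u : 𝓞 K ≃+* 𝓞 K) : 𝓞 K →+* 𝓞 K) = Q) : u = 1 := by
  have hpp : p.Prime := hp.out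
  have hcardN : Nat.card (𝓞 K ⧸ Q) = ℓ := by
    rw [← hQ, Ideal.absNorm_apply, Submodule.cardQuot_apply]
  have hζ0 := IsCyclotomicExtension.zeta_spec p ℚ K
  have hζ : IsPrimitiveRoot hζ0.toInteger p := hζ0.toInteger_isPrimitiveRoot
  have hcop : (Ideal.absNorm Q).Coprime p := by
    rw [hQ]; exact (Nat.coprime_primes hℓ hpp).mpr hℓp
  have hζF : IsPrimitiveRoot (Ideal.Quotient.mk Q hζ0.toInteger) p :=
    hζ.idealQuotient_mk (by rw [hQ]; exact hℓ.ne_one) hcop
  have h1 := sub_mem_of_map_eq_of_card_prime (clRingAction p K u) Q h hℓ hcardN hζ0.toInteger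
  rw [← Ideal.Quotient.eq, clRingAction_apply_of_pow_eq K u hζ.pow_eq_one, map_pow] at h1
  have h2 : (u : ZMod p).val = 1 := by
    refine hζF.pow_inj (ZMod.val_lt _) hpp.one_lt ?_
    rw [h1, pow_one]
  ext
  rw [Units.val_one, ← ZMod.natCast_zmod_val (u : ZMod p), h2, Nat.cast_one]

/-- Galois conjugation of the Jacobi sum of a character with values in `p`-th roots of unity. -/
theorem clRingAction_jacobiSum {F : Type*} [Field F] [Fintype F] (χ : MulChar F (𝓞 K))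
    (hχ : χ ^ p = 1) (d : (ZMod p)ˣ) :
    clRingAction p K d (jacobiSum χ χ) =
      jacobiSum (χ ^ (d : ZMod p).val) (χ ^ (d : ZMod p).val) := by
  have h1 : χ.ringHomComp ((clRingAction p K d : 𝓞 K ≃+* 𝓞 K) : 𝓞 K →+* 𝓞 K) =
      χ ^ (d : ZMod p).val := by
    refine MulChar.ext fun x => ?_
    rw [MulChar.ringHomComp_apply, MulChar.pow_apply_coe]
    have hx : (χ x) ^ p = 1 := by
      rw [← MulChar.pow_apply_coe, hχ, MulChar.one_apply_coe]
    exact clRingAction_apply_of_pow_eq K d hx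
  rw [← h1]
  exact (jacobiSum_ringHomComp χ χ
    ((clRingAction p K d : 𝓞 K ≃+* 𝓞 K) : 𝓞 K →+* 𝓞 K)).symm

theorem exists_span_singleton_eq_prod (hp2 : p ≠ 2) {ℓ : ℕ} (hℓ : ℓ.Prime) (hℓp : ℓ ≠ p)
    (Q : Ideal (𝓞 K)) (hQ : Ideal.absNorm Q = ℓ) :
    ∃ J : 𝓞 K, Ideal.span {J} = ∏ c ∈ exponentSet p,
      Q.map ((clRingAction p K (expUnit p c)⁻¹ : 𝓞 K ≃+* 𝓞 K) : 𝓞 K →+* 𝓞 K) := by
  classical
  have hpp : p.Prime := hp.out
  have hQprime : Q.IsPrime := Ideal.isPrime_of_irreducible_absNorm (hQ ▸ hℓ)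
  have hQ0 : Q ≠ ⊥ := by
    rintro rfl
    rw [Ideal.absNorm_bot] at hQ
    exact hℓ.ne_zero hQ.symm
  have hQmax : Q.IsMaximal := hQprime.isMaximal hQ0
  let _ : Field (𝓞 K ⧸ Q) := Ideal.Quotient.field Q
  let _ : Fintype (𝓞 K ⧸ Q) := Fintype.ofFinite _
  have hcardN : Nat.card (𝓞 K ⧸ Q) = ℓ := by
    rw [← hQ, Ideal.absNorm_apply, Submodule.cardQuot_apply]
  have hcard : Fintype.card (𝓞 K ⧸ Q) = ℓ := by rw [← Nat.card_eq_fintype_card, hcardN]
  -- the primitive root and its reduction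
  have hζ0 := IsCyclotomicExtension.zeta_spec p ℚ K
  have hζ : IsPrimitiveRoot hζ0.toInteger p := hζ0.toInteger_isPrimitiveRoot
  have hcop : (Ideal.absNorm Q).Coprime p := by
    rw [hQ]; exact (Nat.coprime_primes hℓ hpp).mpr hℓp
  have hζF : IsPrimitiveRoot (Ideal.Quotient.mk Q hζ0.toInteger) p :=
    hζ.idealQuotient_mk (by rw [hQ]; exact hℓ.ne_one) hcop
  -- `p ∣ ℓ - 1`
  have hdvd : p ∣ ℓ - 1 := by
    have h0 : Ideal.Quotient.mk Q hζ0.toInteger ≠ 0 := hζF.ne_zero hpp.ne_zero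
    have h1 := FiniteField.pow_card_sub_one_eq_one _ h0
    rw [hcard] at h1
    exact hζF.dvd_of_pow_eq_one _ h1
  obtain ⟨m, hm⟩ := hdvd
  have hm0 : 0 < m := by
    rcases Nat.eq_zero_or_pos m with rfl | h
    · have := hℓ.two_le; omega
    · exact h
  obtain ⟨χ, hχp, hχlift, hχ1⟩ := exists_mulChar_lift (Ideal.Quotient.mk Q) hpp.pos hζ hζF
    (by rw [hcard]; exact hm) hm0 hpp.one_lt
  refine ⟨jacobiSum χ χ, ?_⟩
  set J := jacobiSum χ χ with hJ
  -- (a) `J` lies in each conjugate prime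
  have hmem : ∀ c ∈ exponentSet p,
      J ∈ Q.map ((clRingAction p K (expUnit p c)⁻¹ : 𝓞 K ≃+* 𝓞 K) : 𝓞 K →+* 𝓞 K) := by
    intro c hc
    have hc' := mem_exponentSet.mp hc
    have h1 : clRingAction p K (expUnit p c) J ∈ Q := by
      rw [hJ, clRingAction_jacobiSum K χ hχp, val_expUnit hc, ← Ideal.Quotient.eq_zero_iff_mem]
      refine map_jacobiSum_pow_eq_zero (Ideal.Quotient.mk Q) χ hχlift hc'.1.ne' ?_
      rw [hcard, hm]
      nlinarith
    have h2 : J = (clRingAction p K (expUnit p c)⁻¹) (clRingAction p K (expUnit p c) J) := by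
      rw [← RingAut.mul_apply, ← map_mul, inv_mul_cancel, map_one, RingAut.one_apply]
    rw [h2]
    exact Ideal.mem_map_of_mem _ h1
  -- (b) `J * σ₋₁ J = ℓ`
  have hχinv : χ⁻¹ = χ ^ (p - 1) := by
    refine (eq_inv_of_mul_eq_one_left ?_).symm
    rw [← pow_succ, Nat.sub_add_cancel hpp.pos, hχp]
  have hχsq : χ * χ ≠ 1 := by
    intro h
    have h1 : orderOf χ ∣ 2 := orderOf_dvd_of_pow_eq_one (by rw [pow_two, h])
    have h2 : orderOf χ ∣ p := orderOf_dvd_of_pow_eq_one hχp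
    have h3 : orderOf χ ∣ Nat.gcd 2 p := Nat.dvd_gcd h1 h2
    have h4 : Nat.gcd 2 p = 1 := by
      rw [Nat.coprime_primes Nat.prime_two hpp |>.mpr (Ne.symm hp2)]
    rw [h4, Nat.dvd_one, orderOf_eq_one_iff] at h3
    exact hχ1 h3
  have hprod : J * clRingAction p K (-1) J = (ℓ : 𝓞 K) := by
    have hinj : Function.Injective (algebraMap (𝓞 K) K) := FaithfulSMul.algebraMap_injective _ _
    have hval : ((-1 : (ZMod p)ˣ) : ZMod p).val = p - 1 := by
      obtain ⟨n, rfl⟩ : ∃ n, p = n + 1 := ⟨p - 1, (Nat.sub_add_cancel hpp.pos).symm⟩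
      rw [Units.val_neg, Units.val_one, ZMod.val_neg_one, Nat.add_sub_cancel]
    rw [hJ, clRingAction_jacobiSum K χ hχp, hval, ← hχinv]
    apply hinj
    rw [map_mul, ← jacobiSum_ringHomComp, ← jacobiSum_ringHomComp, ← MulChar.ringHomComp_inv,
      map_natCast]
    have hchar : ringChar K ≠ ringChar (𝓞 K ⧸ Q) := by
      rw [ringChar.eq_zero]
      have h1 : ((ℓ : ℕ) : 𝓞 K ⧸ Q) = 0 := by
        have := Ideal.absNorm_mem Q
        rw [hQ] at this
        rw [← map_natCast (Ideal.Quotient.mk Q), Ideal.Quotient.eq_zero_iff_mem]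
        exact this
      rw [CharP.ringChar_of_prime_eq_zero hℓ h1]
      exact hℓ.ne_zero.symm
    have := jacobiSum_mul_jacobiSum_inv hchar
      ((MulChar.ringHomComp_ne_one_iff hinj).mpr hχ1) ((MulChar.ringHomComp_ne_one_iff hinj).mpr hχ1)
      (by rw [← MulChar.ringHomComp_mul]; exact (MulChar.ringHomComp_ne_one_iff hinj).mpr hχsq)
    rw [this, hcard]
  -- (c) the absolute norm of `J`
  obtain ⟨h, hh⟩ : ∃ h, p - 1 = 2 * h := by
    rcases hpp.eq_two_or_odd with h2 | hodd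
    · exact absurd h2 hp2
    · exact ⟨(p - 1) / 2, by omega⟩
  have hnorm : Ideal.absNorm (Ideal.span {J}) = ℓ ^ h := by
    rw [Ideal.absNorm_span_singleton]
    have h1 := congrArg (Algebra.norm ℤ) hprod
    rw [map_mul] at h1
    have h2 : Algebra.norm ℤ (clRingAction p K (-1) J) = Algebra.norm ℤ J :=
      Algebra.norm_eq_of_algEquiv (clRingAction p K (-1)).toIntAlgEquiv J
    have h3 : Algebra.norm ℤ ((ℓ : ℕ) : 𝓞 K) = (ℓ : ℤ) ^ (p - 1) := by
      have h4 := Algebra.norm_algebraMap (R := ℤ) (S := 𝓞 K) (ℓ : ℤ)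
      rw [RingOfIntegers.rank K, IsCyclotomicExtension.finrank K
        (Polynomial.cyclotomic.irreducible_rat hpp.pos), Nat.totient_prime hpp] at h4
      simpa using h4
    rw [h2, h3, hh] at h1
    have h5 : ((Algebra.norm ℤ J).natAbs) ^ 2 = (ℓ ^ h) ^ 2 := by
      have h6 := congrArg Int.natAbs h1
      rw [Int.natAbs_mul, Int.natAbs_pow, Int.natAbs_natCast] at h6
      rw [pow_two, h6, ← pow_mul, mul_comm]
    exact Nat.pow_left_injective (show 2 ≠ 0 by norm_num) h5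
  -- (d) the conjugate primes are pairwise coprime
  have hPmax : ∀ c, (Q.map ((clRingAction p K (expUnit p c)⁻¹ : 𝓞 K ≃+* 𝓞 K) :
      𝓞 K →+* 𝓞 K)).IsMaximal :=
    fun c => Ideal.map_isMaximal_of_equiv (clRingAction p K (expUnit p c)⁻¹)
  have hPinj : ∀ c ∈ exponentSet p, ∀ d ∈ exponentSet p,
      Q.map ((clRingAction p K (expUnit p c)⁻¹ : 𝓞 K ≃+* 𝓞 K) : 𝓞 K →+* 𝓞 K) =
      Q.map ((clRingAction p K (expUnit p d)⁻¹ : 𝓞 K ≃+* 𝓞 K) : 𝓞 K →+* 𝓞 K) → c = d := by
    intro c hc d hd hcd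
    have h1 := congrArg
      (Ideal.map ((clRingAction p K (expUnit p c) : 𝓞 K ≃+* 𝓞 K) : 𝓞 K →+* 𝓞 K)) hcd
    rw [map_map_clRingAction, map_map_clRingAction, mul_inv_cancel, map_clRingAction_one] at h1
    have h2 := eq_one_of_map_clRingAction_eq K hℓ hℓp Q hQ _ h1.symm
    exact expUnit_injOn hc hd (mul_inv_eq_one.mp h2)
  have hdvd : ∏ c ∈ exponentSet p,
      Q.map ((clRingAction p K (expUnit p c)⁻¹ : 𝓞 K ≃+* 𝓞 K) : 𝓞 K →+* 𝓞 K) ∣ Ideal.span {J} := by
    refine Finset.prod_dvd_of_coprime ?_ fun c hc => Ideal.dvd_span_singleton.mpr (hmem c hc)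
    intro c hc d hd hne
    have := hPmax c
    have := hPmax d
    exact Ideal.isCoprime_of_isMaximal fun h => hne (hPinj c hc d hd h)
  -- (e) compare norms
  obtain ⟨B, hB⟩ := hdvd
  have hnormP : Ideal.absNorm (∏ c ∈ exponentSet p,
      Q.map ((clRingAction p K (expUnit p c)⁻¹ : 𝓞 K ≃+* 𝓞 K) : 𝓞 K →+* 𝓞 K)) = ℓ ^ h := by
    rw [map_prod, Finset.prod_congr rfl fun c _ => (absNorm_map_ringEquiv _ Q).trans hQ,
      Finset.prod_const, card_exponentSet, hh, Nat.mul_div_cancel_left h (by norm_num)]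
  have hB1 : Ideal.absNorm B = 1 := by
    have h1 := congrArg Ideal.absNorm hB
    rw [map_mul, hnorm, hnormP] at h1
    have h2 : ℓ ^ h ≠ 0 := pow_ne_zero _ hℓ.ne_zero
    exact (Nat.eq_of_mul_eq_mul_left (Nat.pos_of_ne_zero h2) (by rw [mul_one]; exact h1)).symm
  rw [hB, Ideal.absNorm_eq_one_iff.mp hB1, Ideal.mul_top]

/-! ### The eigenvalue of the Stickelberger element on the `ω⁻¹`-eigenspace -/

theorem two_mul_sum_Icc (h : ℕ) : 2 * ∑ c ∈ Finset.Icc 1 h, c = h * (h + 1) := by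
  induction h with
  | zero => simp
  | succ n ih =>
    rw [Finset.sum_Icc_succ_top (by omega), mul_add, ih]
    ring

/-- `8 * ∑_{0 < c < p/2} c = p² - 1` for odd `p`. -/
theorem eight_mul_eigenvalueScalar {p : ℕ} (hodd : Odd p) :
    8 * eigenvalueScalar p + 1 = p ^ 2 := by
  obtain ⟨h, rfl⟩ := hodd
  have h1 : (2 * h + 1 - 1) / 2 = h := by omega
  rw [eigenvalueScalar, exponentSet_eq_Icc, h1]
  have := two_mul_sum_Icc h
  nlinarith

/-- The scalar `∑_{0 < c < p/2} c` is a unit modulo an odd prime `p`. -/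
theorem eigenvalueScalar_ne_zero {p : ℕ} [Fact p.Prime] (hp2 : p ≠ 2) :
    ((eigenvalueScalar p : ℕ) : ZMod p) ≠ 0 := by
  have hpp : p.Prime := Fact.out
  have hodd : Odd p := hpp.eq_two_or_odd'.resolve_left hp2
  have h1 := congrArg (Nat.cast : ℕ → ZMod p) (eight_mul_eigenvalueScalar hodd)
  intro h0
  rw [Nat.cast_add, Nat.cast_mul, h0, mul_zero, zero_add, Nat.cast_one, Nat.cast_pow,
    ZMod.natCast_self, zero_pow (by norm_num)] at h1
  exact one_ne_zero h1

/-- On an `ω^{p-2} = ω⁻¹`-eigenvector the Stickelberger endomorphism acts as the unit scalar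
`∑_{0 < c < p/2} c`; hence an eigenvector killed by it vanishes. -/
theorem stickelbergerEnd_apply_of_isOmegaEigenvector {p : ℕ} [Fact p.Prime] {A : Type*}
    [AddCommGroup A] [Module (ZMod p) A] (ρ : (ZMod p)ˣ →* Module.End (ZMod p) A) {a : A}
    (ha : IsOmegaEigenvector ρ (p - 2) a) :
    stickelbergerEnd ρ a = ((eigenvalueScalar p : ℕ) : ZMod p) • a := by
  have hpp : p.Prime := Fact.out
  rw [stickelbergerEnd, LinearMap.sum_apply, eigenvalueScalar, Nat.cast_sum, Finset.sum_smul]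
  refine Finset.sum_congr rfl fun c hc => ?_
  rw [ha]
  congr 1
  have hx : ((expUnit p c : (ZMod p)ˣ) : ZMod p) = (c : ZMod p) := by
    rw [← ZMod.natCast_zmod_val ((expUnit p c : (ZMod p)ˣ) : ZMod p), val_expUnit hc]
  have hx0 : (c : ZMod p) ≠ 0 := by
    rw [← hx]; exact Units.ne_zero _
  rw [Units.val_inv_eq_inv_val, hx, inv_pow]
  have h1 : (c : ZMod p) ^ (p - 1) = 1 := ZMod.pow_card_sub_one_eq_one hx0
  have h2 : (c : ZMod p) ^ (p - 2) * (c : ZMod p) = 1 := by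
    rw [← pow_succ, show p - 2 + 1 = p - 1 by have := hpp.two_le; omega, h1]
  rw [eq_inv_of_mul_eq_one_left h2, inv_inv]

theorem eq_zero_of_stickelbergerEnd_eq_zero {p : ℕ} [Fact p.Prime] (hp2 : p ≠ 2) {A : Type*}
    [AddCommGroup A] [Module (ZMod p) A] (ρ : (ZMod p)ˣ →* Module.End (ZMod p) A) {a : A}
    (ha : IsOmegaEigenvector ρ (p - 2) a) (hann : stickelbergerEnd ρ a = 0) : a = 0 := by
  rw [stickelbergerEnd_apply_of_isOmegaEigenvector ρ ha] at hann
  exact (smul_eq_zero.mp hann).resolve_left (eigenvalueScalar_ne_zero hp2)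

/-! ### Class group versions -/

section ClassGroup

open scoped nonZeroDivisors

/-- **Stickelberger for degree-one primes**, class group form: the product of the classes of the
conjugates `σ_c⁻¹ Q`, `0 < c < p/2`, of a prime `Q` of prime norm `ℓ ≠ p` is trivial. -/
theorem prod_mk0_mapNonZero_eq_one (hp2 : p ≠ 2) {ℓ : ℕ} (hℓ : ℓ.Prime) (hℓp : ℓ ≠ p)
    (Q : (Ideal (𝓞 K))⁰) (hQ : Ideal.absNorm (Q : Ideal (𝓞 K)) = ℓ) :
    ∏ c ∈ exponentSet p,
      ClassGroup.mk0 (Ideal.mapNonZero (clRingAction p K (expUnit p c)⁻¹) Q) = 1 := by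
  obtain ⟨J, hJ⟩ := exists_span_singleton_eq_prod K hp2 hℓ hℓp (Q : Ideal (𝓞 K)) hQ
  rw [← map_prod]
  have hmem : (∏ c ∈ exponentSet p, Ideal.mapNonZero (clRingAction p K (expUnit p c)⁻¹) Q :
      (Ideal (𝓞 K))⁰) = ⟨Ideal.span {J}, by
        rw [hJ]
        exact Submonoid.prod_mem _ fun c _ =>
          (Ideal.mapNonZero (clRingAction p K (expUnit p c)⁻¹) Q).2⟩ := by
    apply Subtype.ext
    rw [Submonoid.coe_finsetProd]
    simp only [Ideal.coe_mapNonZero]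
    exact hJ.symm
  rw [hmem, ClassGroup.mk0_eq_one_iff]
  exact ⟨⟨J, rfl⟩⟩

/-- **Stickelberger for degree-one primes**, in the shape of the Prelude's
`Stickelberger.stickelbergerEnd`: the Stickelberger endomorphism kills the class (mod `p`) of a
prime of prime norm `ℓ ≠ p`. -/
theorem stickelbergerEnd_clGalAction_mk0 (hp2 : p ≠ 2) {ℓ : ℕ} (hℓ : ℓ.Prime) (hℓp : ℓ ≠ p)
    (Q : (Ideal (𝓞 K))⁰) (hQ : Ideal.absNorm (Q : Ideal (𝓞 K)) = ℓ) :
    stickelbergerEnd (clGalAction p K)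
      (clProj p (𝓞 K) (Additive.ofMul (ClassGroup.mk0 Q))) = 0 := by
  rw [stickelbergerEnd, LinearMap.sum_apply]
  simp only [clGalAction_clProj_mk0]
  rw [← map_sum, ← ofMul_prod, prod_mk0_mapNonZero_eq_one K hp2 hℓ hℓp Q hQ, ofMul_one, map_zero]

end ClassGroup

end Fermat.Agent.Lib.CFT.S14.Stick
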