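import Fermat.Agent.Lib.CFT.S14.Interface
import Fermat.Agent.Lib.CFT.S14.Stickelberger

/-!
# `StickelbergerDegOne p` holds for every prime `p`

Bridge from `Stick.exists_span_singleton_eq_prod` (stated with the Prelude's `clRingAction`) to the
interface statement `StickelbergerDegOne p` (stated with the pointwise action of `Gal(K/ℚ)` on
ideals and an arbitrary cyclotomic character `χ`).
-/

set_option autoImplicit false

open NumberField JacobiSumStickelberger Stickelberger
open scoped Pointwise nonZeroDivisors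

namespace Fermat.Agent.Lib.CFT.S14.Stick

variable {p : ℕ} [hp : Fact p.Prime] (K : Type*) [Field K] [NumberField K]
  [IsCyclotomicExtension {p} ℚ K]

/-- A cyclotomic character of `Gal(ℚ(ζ_p)/ℚ)` is the canonical isomorphism onto `(ℤ/p)ˣ`. -/
theorem isCycloChar_eq (χ : Gal(K/ℚ) →* (ZMod p)ˣ)
    (hχ : ∀ (σ : Gal(K/ℚ)) (ζ : K), ζ ^ p = 1 → σ ζ = ζ ^ ((χ σ : ZMod p).val)) (σ : Gal(K/ℚ)) :
    χ σ = cycloGalEquiv p K σ := by
  have hζ := IsCyclotomicExtension.zeta_spec p ℚ K
  have h1 := hχ σ _ hζ.pow_eq_one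
  have h2 := IsCyclotomicExtension.Rat.galEquivZMod_apply_of_pow_eq p K σ hζ.pow_eq_one
  have h3 : ((χ σ : (ZMod p)ˣ) : ZMod p).val =
      ((IsCyclotomicExtension.Rat.galEquivZMod p K σ : (ZMod p)ˣ) : ZMod p).val :=
    hζ.pow_inj (ZMod.val_lt _) (ZMod.val_lt _) (h1.symm.trans h2)
  exact Units.ext (ZMod.val_injective p h3)

set_option backward.isDefEq.respectTransparency false in
/-- The Prelude's `clRingAction` is the restriction to `𝓞 K` of the Galois action. -/
theorem coe_clRingAction_eq_toRingHom (τ : Gal(K/ℚ)) :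
    ((clRingAction p K (cycloGalEquiv p K τ) : 𝓞 K ≃+* 𝓞 K) : 𝓞 K →+* 𝓞 K) =
      MulSemiringAction.toRingHom Gal(K/ℚ) (𝓞 K) τ := by
  refine RingHom.ext fun x => ?_
  apply FaithfulSMul.algebraMap_injective (𝓞 K) K
  rw [RingHom.coe_coe, algebraMap_clRingAction_apply, MulEquiv.symm_apply_apply]
  rfl

theorem map_clRingAction_eq_smul (τ : Gal(K/ℚ)) (I : Ideal (𝓞 K)) :
    I.map ((clRingAction p K (cycloGalEquiv p K τ) : 𝓞 K ≃+* 𝓞 K) : 𝓞 K →+* 𝓞 K) = τ • I := by
  rw [coe_clRingAction_eq_toRingHom, Ideal.pointwise_smul_def]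

end Fermat.Agent.Lib.CFT.S14.Stick

namespace Fermat.Agent.Lib.CFT.S14

open Stick

/-- Stickelberger's theorem for primes of degree one, in the interface form. -/
theorem stickelbergerDegOne (p : ℕ) [hp : Fact p.Prime] : StickelbergerDegOne p := by
  intro K _ _ _ χ hχ 𝔮 q _ hq hqp hnorm
  have hpp : p.Prime := hp.out
  have hχeq : ∀ σ, χ σ = cycloGalEquiv p K σ := isCycloChar_eq K χ hχ
  have hpos : ∀ σ : Gal(K/ℚ), 0 < ((χ σ : (ZMod p)ˣ) : ZMod p).val := fun σ =>
    (ZMod.val_pos).mpr (Units.ne_zero _)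
  by_cases hp2 : p = 2
  · -- the index set is empty
    refine ⟨1, ?_⟩
    rw [Finset.filter_false_of_mem, Finset.prod_empty, Ideal.span_singleton_one, Ideal.one_eq_top]
    intro σ _
    have := hpos σ
    subst hp2
    omega
  · obtain ⟨J, hJ⟩ := exists_span_singleton_eq_prod K hp2 hq hqp 𝔮 hnorm
    refine ⟨J, hJ.trans ?_⟩
    have hodd : Odd p := hpp.eq_two_or_odd'.resolve_left hp2
    refine Finset.prod_bij (fun c _ => (cycloGalEquiv p K).symm (expUnit p c)) ?_ ?_ ?_ ?_
    · intro c hc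
      rw [Finset.mem_filter]
      refine ⟨Finset.mem_univ _, ?_⟩
      rw [hχeq, MulEquiv.apply_symm_apply, val_expUnit hc]
      have := mem_exponentSet.mp hc
      omega
    · intro c hc d hd hcd
      exact expUnit_injOn hc hd ((cycloGalEquiv p K).symm.injective hcd)
    · intro σ hσ
      rw [Finset.mem_filter] at hσ
      have hc : ((χ σ : (ZMod p)ˣ) : ZMod p).val ∈ exponentSet p := by
        rw [mem_exponentSet]
        obtain ⟨k, hk⟩ := hodd
        have := hpos σ
        omega
      refine ⟨_, hc, ?_⟩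
      have h1 : expUnit p ((χ σ : (ZMod p)ˣ) : ZMod p).val = χ σ :=
        Units.ext (ZMod.val_injective p (val_expUnit hc))
      rw [h1, hχeq, MulEquiv.symm_apply_apply]
    · intro c hc
      rw [← map_clRingAction_eq_smul (p := p), map_inv (cycloGalEquiv p K),
        MulEquiv.apply_symm_apply]
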