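/-
helper93 (P-CFT, S14 side).  The statement S14 modulo the three remaining work packages of the
S14 fast track (`LowerBound p`, `UpperBound p`, `CrossingDataExists p`).
-/
import Mathlib
import Fermat.Agent.Lib.CFT.S14.Assembly
import Fermat.Agent.Lib.CFT.S14.Bridge
import Fermat.Agent.Lib.CFT.S14.StickelbergerDegOne
import Fermat.Agent.Lib.CFT.Unram.Master

set_option autoImplicit false

namespace Fermat.Agent.Lib.CFT.S14

/-- S14 from the interface statement `ArtinUnramifiedCyclic p` alone. -/
theorem extVanishingCts_of_artin {p : ℕ} [Fact p.Prime] (h3 : 3 ≤ p)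
    (hA : ArtinUnramifiedCyclic p) : ExtCitation.ExtVanishingCts p :=
  extVanishingCts_of_inputs h3 inertiaLift hA (stickelbergerDegOne p)

/-- S14 modulo the three remaining work packages of the fast track. -/
theorem extVanishingCts_of_remaining {p : ℕ} [Fact p.Prime] (h3 : 3 ≤ p)
    (hL : Unram.LowerBound p) (hU : Unram.UpperBound p) (hCD : Unram.CrossingDataExists p) :
    ExtCitation.ExtVanishingCts p :=
  extVanishingCts_of_artin h3 (Unram.artinUnramifiedCyclic_of_remaining hL hU hCD)

end Fermat.Agent.Lib.CFT.S14
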