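/-
helper10 (P-CFT, S14 side).  Arithmetic endgame of `Final.lean`:
a multiplicative map `φ` from the nonzero ideals of `ℚ(ζ_p)` to a group of exponent `p` which
kills principal ideals and is `χ⁻¹`-equivariant for the Galois action kills every prime ideal,
given Stickelberger's theorem for primes of degree one.
-/
import Mathlib
import Fermat.Agent.Lib.CFT.S14.Interface

set_option autoImplicit false
set_option linter.unusedSectionVars false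

namespace Fermat.Agent.Lib.CFT.S14

open NumberField
open scoped Pointwise nonZeroDivisors

namespace FinalCore

variable {p : ℕ} [hp : Fact p.Prime] {K : Type} [Field K] [NumberField K]
  [hK : IsCyclotomicExtension {p} ℚ K]

/-- Mathlib's `galEquivZMod` is a cyclotomic character in the sense of `IsCycloChar`. -/
theorem isCycloChar_galEquivZMod :
    IsCycloChar p K (IsCyclotomicExtension.Rat.galEquivZMod p K).toMonoidHom := by
  intro σ ζ hζ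
  exact IsCyclotomicExtension.Rat.galEquivZMod_apply_of_pow_eq p K σ hζ

/-- A prime ideal containing the rational prime `ℓ` lies over `ℓ`. -/
theorem liesOver_of_natCast_mem (𝔮 : Ideal (𝓞 K)) [h𝔮 : 𝔮.IsPrime] {ℓ : ℕ} (hℓ : ℓ.Prime)
    (hmem : (ℓ : 𝓞 K) ∈ 𝔮) : 𝔮.LiesOver (Ideal.span {(ℓ : ℤ)}) := by
  constructor
  have hmax : (Ideal.span {(ℓ : ℤ)}).IsMaximal := by
    have : Fact ℓ.Prime := ⟨hℓ⟩
    exact Int.ideal_span_isMaximal_of_prime ℓ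
  refine hmax.eq_of_le (Ideal.IsPrime.under ℤ 𝔮).ne_top ?_
  rw [Ideal.span_singleton_le_iff_mem, Ideal.under_def, Ideal.mem_comap]
  simpa using hmem

/-- The values `(χ σ).val` for `σ` in the Stickelberger index set are exactly `1, …, (p-1)/2`. -/
theorem image_val_eq_Icc (S : Finset Gal(K/ℚ))
    (hS : ∀ σ, σ ∈ S ↔ (IsCyclotomicExtension.Rat.galEquivZMod p K σ).val.val ≤ (p - 1) / 2) :
    S.image (fun σ => (IsCyclotomicExtension.Rat.galEquivZMod p K σ).val.val) =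
      Finset.Icc 1 ((p - 1) / 2) := by
  classical
  ext n
  rw [Finset.mem_image, Finset.mem_Icc]
  constructor
  · rintro ⟨σ, hσ, rfl⟩
    refine ⟨?_, (hS σ).mp hσ⟩
    rw [Nat.one_le_iff_ne_zero]
    intro h0
    exact (IsCyclotomicExtension.Rat.galEquivZMod p K σ).ne_zero ((ZMod.val_eq_zero _).mp h0)
  · intro hn
    have hp0 := hp.out.pos
    have hnp : n < p := by omega
    have hcop : n.Coprime p :=
      ((Nat.Prime.coprime_iff_not_dvd hp.out).mpr (Nat.not_dvd_of_pos_of_lt hn.1 hnp)).symm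
    refine ⟨(IsCyclotomicExtension.Rat.galEquivZMod p K).symm (ZMod.unitOfCoprime n hcop), ?_, ?_⟩
    · rw [hS, MulEquiv.apply_symm_apply, ZMod.coe_unitOfCoprime, ZMod.val_natCast_of_lt hnp]
      exact hn.2
    · rw [MulEquiv.apply_symm_apply, ZMod.coe_unitOfCoprime, ZMod.val_natCast_of_lt hnp]

/-- `∑_{σ ∈ S} (χ σ).val = h (h + 1) / 2`, `h = (p - 1) / 2`, in the doubled form. -/
theorem two_mul_sum_val (S : Finset Gal(K/ℚ))
    (hS : ∀ σ, σ ∈ S ↔ (IsCyclotomicExtension.Rat.galEquivZMod p K σ).val.val ≤ (p - 1) / 2) :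
    (∑ σ ∈ S, (IsCyclotomicExtension.Rat.galEquivZMod p K σ).val.val) * 2 =
      ((p - 1) / 2) * ((p - 1) / 2 + 1) := by
  classical
  have hinj : Set.InjOn (fun σ : Gal(K/ℚ) =>
      (IsCyclotomicExtension.Rat.galEquivZMod p K σ).val.val) (S : Set Gal(K/ℚ)) := by
    intro σ _ τ _ h
    apply (IsCyclotomicExtension.Rat.galEquivZMod p K).injective
    ext
    exact ZMod.val_injective p h
  have h1 := Finset.sum_image (f := fun n : ℕ => n) hinj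
  rw [image_val_eq_Icc S hS] at h1
  rw [← h1]
  have h2 : ∀ h : ℕ, ∑ n ∈ Finset.Icc 1 h, n = ∑ n ∈ Finset.range (h + 1), n := by
    intro h
    induction h with
    | zero => simp
    | succ m ih =>
      rw [Finset.sum_range_succ, ← ih, Finset.sum_Icc_succ_top (by omega : 1 ≤ m + 1)]
  rw [h2, Finset.sum_range_id_mul_two, Nat.add_sub_cancel, mul_comm]


/-- In a group of exponent `p`, an element killed by an exponent prime to `p` is trivial. -/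
theorem eq_one_of_pow_eq_one {H : Type*} [Group H] {h : H} (h1 : h ^ p = 1) {s : ℕ}
    (h2 : h ^ s = 1) (hs : ¬ p ∣ s) : h = 1 := by
  rw [← orderOf_eq_one_iff]
  rcases (Nat.dvd_prime hp.out).mp (orderOf_dvd_of_pow_eq_one h1) with h3 | h3
  · exact h3
  · exact absurd (h3 ▸ orderOf_dvd_of_pow_eq_one h2) hs

section main

variable (hp2 : p ≠ 2) (hS : StickelbergerDegOne p)
  {H : Type*} [Group H] (hH : ∀ h : H, h ^ p = 1)
  (φ : (Ideal (𝓞 K))⁰ →* H)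
  (hprinc : ∀ I : (Ideal (𝓞 K))⁰, (I : Ideal (𝓞 K)).IsPrincipal → φ I = 1)
  (hequiv : ∀ (σ : Gal(K/ℚ)) (𝔮 𝔮' : (Ideal (𝓞 K))⁰), (𝔮 : Ideal (𝓞 K)).IsPrime →
      (𝔮' : Ideal (𝓞 K)) = σ • (𝔮 : Ideal (𝓞 K)) →
      φ 𝔮' = φ 𝔮 ^
        (((IsCyclotomicExtension.Rat.galEquivZMod p K σ)⁻¹ : (ZMod p)ˣ) : ZMod p).val)

include hprinc in
/-- Primes above `p` are principal, hence killed. -/
theorem phi_eq_one_of_above_p (𝔮 : (Ideal (𝓞 K))⁰) (h𝔮 : (𝔮 : Ideal (𝓞 K)).IsPrime)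
    (hmem : (p : 𝓞 K) ∈ (𝔮 : Ideal (𝓞 K))) : φ 𝔮 = 1 := by
  have hlies := liesOver_of_natCast_mem (𝔮 : Ideal (𝓞 K)) hp.out hmem
  apply hprinc
  rw [IsCyclotomicExtension.Rat.eq_span_zeta_sub_one_of_liesOver' (p := p) (K := K)
    (hζ := IsCyclotomicExtension.zeta_spec p ℚ K) (P := (𝔮 : Ideal (𝓞 K)))]
  exact ⟨⟨_, rfl⟩⟩

include hH hequiv in
/-- Primes above `ℓ ≢ 1 mod p` are fixed by a `σ` with `χ σ = ℓ ≠ 1`, hence killed. -/
theorem phi_eq_one_of_ne_one (𝔮 : (Ideal (𝓞 K))⁰) (h𝔮 : (𝔮 : Ideal (𝓞 K)).IsPrime) {ℓ : ℕ}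
    (hℓ : ℓ.Prime) (hℓp : ℓ ≠ p) (hmem : (ℓ : 𝓞 K) ∈ (𝔮 : Ideal (𝓞 K)))
    (hne : (ℓ : ZMod p) ≠ 1) : φ 𝔮 = 1 := by
  have : Fact ℓ.Prime := ⟨hℓ⟩
  have hlies := liesOver_of_natCast_mem (𝔮 : Ideal (𝓞 K)) hℓ hmem
  have hne0 : (𝔮 : Ideal (𝓞 K)) ≠ ⊥ := mem_nonZeroDivisors_iff_ne_zero.mp 𝔮.2
  have hmax : (𝔮 : Ideal (𝓞 K)).IsMaximal := h𝔮.isMaximal hne0
  have hcop : ℓ.Coprime p := (Nat.coprime_primes hℓ hp.out).mpr hℓp
  have hstab := IsCyclotomicExtension.Rat.galEquivZMod_stabilizer p K ℓ (𝔮 : Ideal (𝓞 K)) hcop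
  have hu : ZMod.unitOfCoprime ℓ hcop ∈ (IsCyclotomicExtension.Rat.galEquivZMod p K).mapSubgroup
      (MulAction.stabilizer Gal(K/ℚ) (𝔮 : Ideal (𝓞 K))) := by
    rw [hstab]
    exact Subgroup.mem_zpowers _
  obtain ⟨σ, hσ, hσu⟩ := hu
  have hfix : (𝔮 : Ideal (𝓞 K)) = σ • (𝔮 : Ideal (𝓞 K)) := (MulAction.mem_stabilizer_iff.mp hσ).symm
  have h1 := hequiv σ 𝔮 𝔮 h𝔮 hfix
  set u := IsCyclotomicExtension.Rat.galEquivZMod p K σ with hu_def
  have hu1 : u ≠ 1 := by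
    intro h
    apply hne
    have h2 : ((ZMod.unitOfCoprime ℓ hcop : (ZMod p)ˣ) : ZMod p) = 1 := by
      have : ZMod.unitOfCoprime ℓ hcop = u := hσu.symm
      rw [this, h, Units.val_one]
    rwa [ZMod.coe_unitOfCoprime] at h2
  set e := ((u⁻¹ : (ZMod p)ˣ) : ZMod p).val with he
  have he0 : e ≠ 0 := fun h0 => (u⁻¹).ne_zero ((ZMod.val_eq_zero _).mp h0)
  have he1 : e ≠ 1 := by
    intro h
    apply hu1
    have : ((u⁻¹ : (ZMod p)ˣ) : ZMod p) = 1 := by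
      have h3 := ZMod.natCast_zmod_val ((u⁻¹ : (ZMod p)ˣ) : ZMod p)
      rw [← he, h, Nat.cast_one] at h3
      exact h3.symm
    have h4 : u⁻¹ = 1 := Units.ext this
    exact inv_eq_one.mp h4
  have hep : e < p := ZMod.val_lt _
  have h2 : φ 𝔮 ^ (e - 1) = 1 := by
    have h3 : φ 𝔮 ^ (e - 1) * φ 𝔮 = φ 𝔮 := by
      rw [← pow_succ, Nat.sub_add_cancel (Nat.one_le_iff_ne_zero.mpr he0)]
      exact h1.symm
    exact mul_eq_right.mp h3
  refine eq_one_of_pow_eq_one (hH _) h2 ?_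
  intro hdvd
  have := Nat.le_of_dvd (by omega) hdvd
  omega

include hp2 hS hH hprinc hequiv in
/-- Primes of degree one above `ℓ ≡ 1 mod p` are killed by Stickelberger's theorem. -/
theorem phi_eq_one_of_eq_one (𝔮 : (Ideal (𝓞 K))⁰) (h𝔮 : (𝔮 : Ideal (𝓞 K)).IsPrime) {ℓ : ℕ}
    (hℓ : ℓ.Prime) (hℓp : ℓ ≠ p) (hmem : (ℓ : 𝓞 K) ∈ (𝔮 : Ideal (𝓞 K)))
    (hone : (ℓ : ZMod p) = 1) : φ 𝔮 = 1 := by
  classical
  have : Fact ℓ.Prime := ⟨hℓ⟩
  have hlies := liesOver_of_natCast_mem (𝔮 : Ideal (𝓞 K)) hℓ hmem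
  have hndvd : ¬ ℓ ∣ p := fun h => hℓp ((Nat.prime_dvd_prime_iff_eq hℓ hp.out).mp h)
  have hN : Ideal.absNorm (𝔮 : Ideal (𝓞 K)) = ℓ := by
    rw [← Ideal.pow_inertiaDeg ℓ (𝔮 : Ideal (𝓞 K)),
      IsCyclotomicExtension.Rat.inertiaDeg_eq_of_not_dvd ℓ K (𝔮 : Ideal (𝓞 K)) hndvd, hone,
      orderOf_one, pow_one]
  set χ := (IsCyclotomicExtension.Rat.galEquivZMod p K).toMonoidHom with hχ
  obtain ⟨J, hJ⟩ := hS K χ isCycloChar_galEquivZMod (𝔮 : Ideal (𝓞 K)) ℓ h𝔮 hℓ hℓp hN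
  set S := Finset.univ.filter
    (fun σ : Gal(K/ℚ) => ((χ σ : (ZMod p)ˣ) : ZMod p).val ≤ (p - 1) / 2) with hSdef
  have hSmem : ∀ σ, σ ∈ S ↔
      (IsCyclotomicExtension.Rat.galEquivZMod p K σ).val.val ≤ (p - 1) / 2 := by
    intro σ
    rw [hSdef, Finset.mem_filter]
    simp [hχ]
  have hne0 : (𝔮 : Ideal (𝓞 K)) ≠ ⊥ := mem_nonZeroDivisors_iff_ne_zero.mp 𝔮.2
  -- the conjugates as elements of the monoid of nonzero ideals
  have hconj0 : ∀ σ : Gal(K/ℚ), σ⁻¹ • (𝔮 : Ideal (𝓞 K)) ∈ (Ideal (𝓞 K))⁰ := by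
    intro σ
    rw [mem_nonZeroDivisors_iff_ne_zero]
    intro h0
    apply hne0
    have := congrArg (fun I => σ • I) h0
    simpa using this
  let c : Gal(K/ℚ) → (Ideal (𝓞 K))⁰ := fun σ => ⟨σ⁻¹ • (𝔮 : Ideal (𝓞 K)), hconj0 σ⟩
  have hprod : ((∏ σ ∈ S, c σ : (Ideal (𝓞 K))⁰) : Ideal (𝓞 K)) = Ideal.span {J} := by
    rw [hJ, Submonoid.coe_finsetProd]
  have h1 : φ (∏ σ ∈ S, c σ) = 1 := by
    apply hprinc
    rw [hprod]
    exact ⟨⟨J, rfl⟩⟩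
  have h2 : ∀ T : Finset Gal(K/ℚ), φ (∏ σ ∈ T, c σ) =
      φ 𝔮 ^ (∑ σ ∈ T, (IsCyclotomicExtension.Rat.galEquivZMod p K σ).val.val) := by
    intro T
    induction T using Finset.induction_on with
    | empty => simp
    | insert a T ha ih =>
      have h3 := hequiv a⁻¹ 𝔮 (c a) h𝔮 rfl
      rw [map_inv, inv_inv] at h3
      rw [Finset.prod_insert ha, Finset.sum_insert ha, map_mul, ih, pow_add, h3]
  rw [h2 S] at h1
  refine eq_one_of_pow_eq_one (hH _) h1 ?_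
  intro hdvd
  have h3 := two_mul_sum_val S hSmem
  have h4 : p ∣ ((p - 1) / 2) * ((p - 1) / 2 + 1) := by
    rw [← h3]
    exact Dvd.dvd.mul_right hdvd 2
  have hp3 : 3 ≤ p := by
    have := hp.out.two_le
    omega
  rcases (Nat.Prime.dvd_mul hp.out).mp h4 with h5 | h5
  · have := Nat.le_of_dvd (by omega) h5
    omega
  · have := Nat.le_of_dvd (by omega) h5
    omega

include hp2 hS hH hprinc hequiv in
/-- **Endgame**: `φ` kills every nonzero prime ideal of `ℚ(ζ_p)`. -/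
theorem phi_prime_eq_one (𝔮 : (Ideal (𝓞 K))⁰) (h𝔮 : (𝔮 : Ideal (𝓞 K)).IsPrime) : φ 𝔮 = 1 := by
  have hne0 : (𝔮 : Ideal (𝓞 K)) ≠ ⊥ := mem_nonZeroDivisors_iff_ne_zero.mp 𝔮.2
  have hmax : (𝔮 : Ideal (𝓞 K)).IsMaximal := h𝔮.isMaximal hne0
  obtain ⟨ℓ, n, -, hmem, hℓ, -⟩ := Ideal.exists_prime_and_absNorm_eq_pow (𝔮 : Ideal (𝓞 K))
  by_cases hℓp : ℓ = p
  · subst hℓp
    exact phi_eq_one_of_above_p φ hprinc 𝔮 h𝔮 hmem
  · by_cases hone : (ℓ : ZMod p) = 1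
    · exact phi_eq_one_of_eq_one hp2 hS hH φ hprinc hequiv 𝔮 h𝔮 hℓ hℓp hmem hone
    · exact phi_eq_one_of_ne_one hH φ hequiv 𝔮 h𝔮 hℓ hℓp hmem hone

end main

end FinalCore

end Fermat.Agent.Lib.CFT.S14
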